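/-
Fermat/Agent/T1/Assembly41/ModCoord.lean  (helper41, programme T1A, brick G9-T "LIFT": INTERFACE)

`ModCoordData` : the ARITHMETIC form of the local analytic group data.  Everything lives in
`ℚ̄ = AlgebraicClosure ℚ` (coordinates are REPRESENTATIVES in the ring of integers `O ⊆ ℚ̄` of a
big number field, all properties are congruences modulo `ℓ ^ n • O`), and is transported to
`K̄ = PadicAlgCl ℓ` along the Prelude's `padicEmbedding ℓ`, with `G_ℓ` acting on `ℚ̄` through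
`localGaloisToGlobal ℓ`.

(No negation law: ALG derives stability under `neg` from the comultiplication, decision 11:10Z.)

`TruncOfModCoord ℓ` : `ModCoordData ⟹ Nonempty DiscGroupDataTrunc` (with `tn n x i := ι (c n x i)`,
`K' := muField ℓ m`, the polynomials mapped coefficientwise by `ι`).   Pure bookkeeping:
`‖ι (ℓ ^ n * z)‖ ≤ ‖ℓ‖ ^ n` for `z ∈ O`, and `ι (aeval v F) = aeval (ι ∘ v) (map ι F)`.
-/
import Mathlib
import Fermat.Agent.T1.TruncIface47

set_option autoImplicit false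

noncomputable section

namespace Fermat.Agent.T1.Assembly41

open Fermat.Agent.TW.B5.Iface Fermat.Agent.T1.AlgIface47 Fermat.Agent.T1.TruncIface47

/-- `ℚ̄`. -/
abbrev Qb : Type := AlgebraicClosure ℚ

variable (ℓ : ℕ) [Fact ℓ.Prime]

/-- Congruence modulo `ℓ ^ n • O` in `ℚ̄`. -/
def CongrMod (O : Subring Qb) (n : ℕ) (a b : Qb) : Prop :=
  ∃ z ∈ O, a - b = (ℓ : Qb) ^ n * z

/-- Arithmetic local analytic group data: see the header.  `ι = padicEmbedding ℓ`,
`res = localGaloisToGlobal ℓ`. -/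
structure ModCoordData (J : Type) [AddCommGroup J] (M : Type) [AddCommGroup M]
    (actM : Gp ℓ → M → M) where
  act : Gp ℓ → J →+ J
  act_one : ∀ x, act 1 x = x
  act_mul : ∀ σ τ x, act (σ * τ) x = act σ (act τ x)
  J1 : AddSubgroup J
  J1_stable : ∀ σ, ∀ x ∈ J1, act σ x ∈ J1
  g : ℕ
  /-- the ring of integers of the big number field (at the place of `padicEmbedding`) -/
  O : Subring Qb
  O_int : ∀ x ∈ O, ‖padicEmbedding ℓ x‖ ≤ 1
  O_field : ∃ E : IntermediateField ℚ_[ℓ] (Kbar ℓ), FiniteDimensional ℚ_[ℓ] E ∧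
    ∀ x ∈ O, padicEmbedding ℓ x ∈ E
  /-- representatives of the coordinates modulo `ℓ ^ n` (junk outside `J1`) -/
  c : ℕ → J → Fin g → Qb
  c_mem : ∀ x ∈ J1, ∀ n i, c n x i ∈ O
  c_small : ∀ x ∈ J1, ∀ n i, ‖padicEmbedding ℓ (c n x i)‖ < 1
  c_compat : ∀ x ∈ J1, ∀ n i, CongrMod ℓ O n (c (n + 1) x i) (c n x i)
  /-- injectivity; the hypothesis is stated with norms so that no saturation of `O` is needed -/
  c_inj : ∀ x ∈ J1, ∀ y ∈ J1,
    (∀ n i, ‖padicEmbedding ℓ (c n x i - c n y i)‖ ≤ ‖(ℓ : Kbar ℓ)‖ ^ n) → x = y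
  c_equiv : ∀ σ, ∀ x ∈ J1, ∀ n i,
    CongrMod ℓ O n (c n (act σ x) i) (localGaloisToGlobal ℓ σ (c n x i))
  /-- the coefficient ring of the group law: integers of an unramified cyclotomic field -/
  W0 : Subring Qb
  m : ℕ
  m_ndvd : ¬ ℓ ∣ m
  W0_mu : ∀ w ∈ W0, padicEmbedding ℓ w ∈ intSubring ℓ (Fermat.Agent.TW.B5.LG83W.muField ℓ m)
  add_law : ∀ n : ℕ, ∃ F : Fin g → MvPolynomial (Fin g ⊕ Fin g) W0,
    ∀ x ∈ J1, ∀ y ∈ J1, ∀ i,
      CongrMod ℓ O n (c n (x + y) i) (MvPolynomial.aeval (Sum.elim (c n x) (c n y)) (F i))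
  emb : M →+ J
  emb_inj : Function.Injective emb
  emb_equiv : ∀ σ y, emb (actM σ y) = act σ (emb y)
  centres : ∀ y : M, ∃ x : J, emb y - x ∈ J1 ∧
    ∃ E : IntermediateField ℚ_[ℓ] (Kbar ℓ), FiniteDimensional ℚ_[ℓ] E ∧ IsUnramifiedField ℓ E ∧
      ∀ σ : Gp ℓ, (∀ e ∈ E, σ e = e) → act σ x = x

/-- **G9-T (LIFT).**  Arithmetic data give truncated local analytic group data. -/
def TruncOfModCoord : Prop :=
  ∀ (J : Type) [AddCommGroup J] (M : Type) [AddCommGroup M] (actM : Gp ℓ → M → M),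
    ModCoordData ℓ J M actM → Nonempty (DiscGroupDataTrunc ℓ J M actM)

end Fermat.Agent.T1.Assembly41
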