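/-
Fermat/Agent/T1/Assembly41/FastInst.lean  (helper41, programme T1A)

OPTIONAL SPEED-UP for files working at the concrete rings `A ∩ K = AK A K` and `K·F_M = FK M K`:
typeclass search for `Algebra ↥(AK A K) ↥(FK M K)` / `Module` / `SMul` takes 10-40 s PER QUERY at
these types (and much longer when it fails).  `open scoped Fermat.Agent.T1.Assembly41.FastInst`
installs high-priority shortcut instances (definitionally the ones found by the slow search).
-/
import Mathlib
import Fermat.Agent.RED.Interface4
import Fermat.Agent.RED.NumInst4

set_option autoImplicit false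

noncomputable section

namespace Fermat.Agent.T1.Assembly41.FastInst

open Fermat.Agent.RED.Interface4

variable (A : ValuationSubring Qbar) (M : ℕ) (K : IntermediateField ℚ Qbar)

/-- shortcut: `Algebra (A ∩ K) (K·F_M)`. -/
scoped instance (priority := 10000) algOE : Algebra ↥(AK A K) ↥(FK M K) := inferInstance

/-- shortcut: `Module (A ∩ K) (K·F_M)`. -/
scoped instance (priority := 10000) modOE : Module ↥(AK A K) ↥(FK M K) := Algebra.toModule

/-- shortcut: `SMul (A ∩ K) (K·F_M)`. -/
scoped instance (priority := 10000) smulOE : SMul ↥(AK A K) ↥(FK M K) := Algebra.toSMul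

/-- shortcut: `Algebra K (K·F_M)`. -/
scoped instance (priority := 10000) algKE : Algebra ↥K ↥(FK M K) := inferInstance

/-- shortcut: `Algebra (A ∩ K) K`. -/
scoped instance (priority := 10000) algOK : Algebra ↥(AK A K) ↥K := inferInstance

/-- shortcut: the tower `A ∩ K → K → K·F_M`. -/
scoped instance (priority := 10000) towerOKE : IsScalarTower ↥(AK A K) ↥K ↥(FK M K) :=
  Fermat.Agent.RED.NumInst4.isScalarTower_OE (AK A K) (FK M K)

end Fermat.Agent.T1.Assembly41.FastInst
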