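/-
Fermat/Agent/T1/Assembly41/ChartActConcrete.lean  (helper41, programme T1A = S19 + S32)

Deliverable (1) of the concrete hub: THE GALOIS ACTION ON THE CONCRETE HUB `Concrete.c0 F`.
For `σ ∈ G_ℓ` put `τ = (localGaloisToGlobal ℓ σ)|_{K₁}`, `K₁ = ℚ(ζ_M)`; `τ` preserves `W = A ∩ K₁`, and the
coefficientwise action `arithHom F_M τ` on `K₁·F_M` fixes the coordinate `t = tq K₁ n e`, so it preserves the
charts `B0`, `B1`, `B0 ⊔ B1` of the model (helper56's `ChartAut56.Final.chartAutOfModel`).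

* `chartAction F : ChartAction (c0 F) (Gp ℓ)`;
* `wCompat F : WCompat ℓ M (c0 F) (chartAction F)`;
* `h2 F` : if `localGaloisToGlobal ℓ σ` fixes `K₁` pointwise then `σ` acts trivially on `B0 ⊔ B1` (also `h0`, `h1`);
* `coe_σ0`, `coe_σ1`, `coe_σ01` : the action on the charts is the arithmetic action
  `arithmeticRingAut F_M (resL K₁ (localGaloisToGlobal ℓ σ))` (= `Dict59.arith M K₁ _`), by `rfl`.
-/
import Mathlib
import Fermat.Agent.T1.Assembly41.ConcreteHub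
import Fermat.Agent.T1.Assembly41.FastInst
import Fermat.Agent.T1.ChartAut56.Final

set_option autoImplicit false
set_option linter.unusedSectionVars false
set_option linter.style.haveILetI false

noncomputable section

namespace Fermat.Agent.T1.Assembly41.ChartAct

open Fermat.Agent Fermat.Agent.Jac Fermat.Agent.T1.RedIface75 Fermat.Agent.TW.B5.Iface
open Fermat.Agent.T1.HubInst98 Fermat.Agent.T1.GalAct44
open Fermat.Agent.RED.Interface4 Fermat.Agent.RED.CORE.CoreIface24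
open Fermat.Agent.RED.PUR.GaussGen8 Fermat.Agent.RED.PUR.ChartGeneric22
open Fermat.Agent.T1.Coh60 Fermat.Agent.T1.Assembly41.Concrete
open Fermat.Agent.T1.ChartAut9.Concrete Fermat.Agent.T1.ChartAut9.Generic
open Fermat.Agent.T1.ChartAut56.Final
open Fermat.Agent.X0 ModularCurve
open scoped Fermat.Agent.T1.Assembly41.FastInst

attribute [local instance] Coh60.algebra0 Coh60.algebra1 Coh60.isScalarTower0
  Coh60.isScalarTower1

variable {ℓ : ℕ} [Fact ℓ.Prime] {M : ℕ} [NeZero M] {n e : ℕ} [NeZero n]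

variable (ℓ M) in
/-- `τ = (localGaloisToGlobal ℓ σ)|_{K₁}`. -/
def resK (σ : Gp ℓ) : ↥(K1 M) ≃ₐ[ℚ] ↥(K1 M) := resL (K1 M) (localGaloisToGlobal ℓ σ)

theorem resK_mem (σ : Gp ℓ) (x : ↥(K1 M)) (hx : x ∈ AK (padicPlace ℓ) (K1 M)) :
    resK ℓ M σ x ∈ AK (padicPlace ℓ) (K1 M) :=
  (resL_mem_AK_iff (padicPlace ℓ) (K1 M) (preserves_localGaloisToGlobal ℓ σ) x).mpr hx

theorem resK_one : resK ℓ M (1 : Gp ℓ) = 1 := by
  unfold resK
  rw [map_one, resL_one]

theorem resK_mul (σ τ : Gp ℓ) : resK ℓ M (σ * τ) = resK ℓ M σ * resK ℓ M τ := by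
  unfold resK
  rw [map_mul, resL_mul]

theorem resK_eq_one_of_fixes {σ : Gp ℓ} (h : ∀ x ∈ K1 M, localGaloisToGlobal ℓ σ x = x) :
    resK ℓ M σ = 1 :=
  AlgEquiv.ext fun x => resL_eq_self_of_fixes (K1 M) h x

variable (F : ModelFamily ℓ M n e)

/-- The chart automorphism of `σ ∈ G_ℓ`. -/
def S (σ : Gp ℓ) : ChartAut (c0 F :) :=
  chartAutOfModel (modelK F (K1 M) (zetaK_mem_K1 M))
    (semiOn_arith (AK (padicPlace ℓ) (K1 M)) (modularFunctionFieldFull M) (resK ℓ M σ)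
      (resK_mem σ))
    (arithHom_tq (modularFunctionFieldFull M) (resK ℓ M σ) n e (F.htq (K1 M)))
    (c0 F :) rfl rfl (fun _ => rfl) (fun _ => rfl)

theorem S_σW (σ : Gp ℓ) :
    (S F σ).σW = sigmaO (AK (padicPlace ℓ) (K1 M)) (resK ℓ M σ) (resK_mem σ) := rfl

theorem coe_S_σ0 (σ : Gp ℓ) (b : ↥(B0K F (K1 M))) :
    (((S F σ).σ0 b : ↥(B0K F (K1 M))) : ↥(FK M (K1 M))) =
      arithmeticRingAut (modularFunctionFieldFull M) (resK ℓ M σ) (b : ↥(FK M (K1 M))) := rfl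

theorem coe_S_σ1 (σ : Gp ℓ) (b : ↥(B1K F (K1 M))) :
    (((S F σ).σ1 b : ↥(B1K F (K1 M))) : ↥(FK M (K1 M))) =
      arithmeticRingAut (modularFunctionFieldFull M) (resK ℓ M σ) (b : ↥(FK M (K1 M))) := rfl

theorem coe_S_σ01 (σ : Gp ℓ) (b : ↥(B0K F (K1 M) ⊔ B1K F (K1 M))) :
    (((S F σ).σ01 b : ↥(B0K F (K1 M) ⊔ B1K F (K1 M))) : ↥(FK M (K1 M))) =
      arithmeticRingAut (modularFunctionFieldFull M) (resK ℓ M σ) (b : ↥(FK M (K1 M))) := rfl

theorem arith_one (x : ↥(FK M (K1 M))) :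
    arithHom (modularFunctionFieldFull M) (resK ℓ M (1 : Gp ℓ)) x = x := by
  rw [resK_one, arithHom_one]; rfl

theorem arith_mul (σ τ : Gp ℓ) (x : ↥(FK M (K1 M))) :
    arithHom (modularFunctionFieldFull M) (resK ℓ M (σ * τ)) x =
      arithHom (modularFunctionFieldFull M) (resK ℓ M σ)
        (arithHom (modularFunctionFieldFull M) (resK ℓ M τ) x) := by
  rw [resK_mul, arithHom_mul]; rfl

/-- **The Galois action of `G_ℓ` on the concrete hub.** -/
def chartAction : ChartAction (c0 F :) (Gp ℓ) where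
  S := S F
  oneW := RingHom.ext fun w => Subtype.ext (by
    show resK ℓ M (1 : Gp ℓ) (w : ↥(K1 M)) = (w : ↥(K1 M))
    rw [resK_one]; rfl)
  one0 := chartAutOfModel_σ0_eq_id _ _ rfl rfl _ _ _ _ arith_one
  one1 := chartAutOfModel_σ1_eq_id _ _ rfl rfl _ _ _ _ arith_one
  one01 := chartAutOfModel_σ01_eq_id _ _ rfl rfl _ _ _ _ arith_one
  mulW := fun σ τ => RingHom.ext fun w => Subtype.ext (by
    show resK ℓ M (σ * τ) (w : ↥(K1 M)) = resK ℓ M σ (resK ℓ M τ (w : ↥(K1 M)))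
    rw [resK_mul]; rfl)
  mul0 := fun σ τ => RingHom.ext fun b => Subtype.ext (arith_mul σ τ (b : ↥(FK M (K1 M))))
  mul1 := fun σ τ => RingHom.ext fun b => Subtype.ext (arith_mul σ τ (b : ↥(FK M (K1 M))))
  mul01 := fun σ τ => RingHom.ext fun b => Subtype.ext (arith_mul σ τ (b : ↥(FK M (K1 M))))

theorem chartAction_S (σ : Gp ℓ) : (chartAction F).S σ = S F σ := rfl

/-- The chart action on the constants is the Galois action on `W = A ∩ K₁`. -/
theorem wCompat : WCompat ℓ M (c0 F :) (chartAction F) := fun _ _ => Subtype.ext rfl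

/-- `σ` fixing `K₁` acts trivially on the overlap. -/
theorem h2 (σ : Gp ℓ) (h : ∀ x ∈ K1 M, localGaloisToGlobal ℓ σ x = x) :
    ((chartAction F).S σ).σ01 = RingHom.id ↥(B0K F (K1 M) ⊔ B1K F (K1 M)) :=
  RingHom.ext fun b => Subtype.ext (by
    show arithHom (modularFunctionFieldFull M) (resK ℓ M σ) (b : ↥(FK M (K1 M))) = _
    rw [resK_eq_one_of_fixes h, arithHom_one]; rfl)

theorem h0 (σ : Gp ℓ) (h : ∀ x ∈ K1 M, localGaloisToGlobal ℓ σ x = x) :
    ((chartAction F).S σ).σ0 = RingHom.id ↥(B0K F (K1 M)) :=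
  RingHom.ext fun b => Subtype.ext (by
    show arithHom (modularFunctionFieldFull M) (resK ℓ M σ) (b : ↥(FK M (K1 M))) = _
    rw [resK_eq_one_of_fixes h, arithHom_one]; rfl)

theorem h1 (σ : Gp ℓ) (h : ∀ x ∈ K1 M, localGaloisToGlobal ℓ σ x = x) :
    ((chartAction F).S σ).σ1 = RingHom.id ↥(B1K F (K1 M)) :=
  RingHom.ext fun b => Subtype.ext (by
    show arithHom (modularFunctionFieldFull M) (resK ℓ M σ) (b : ↥(FK M (K1 M))) = _
    rw [resK_eq_one_of_fixes h, arithHom_one]; rfl)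

/-- The action on chart 0 is the arithmetic action (`= Dict59.arith M K₁ (resL K₁ _)`). -/
theorem coe_σ0 (σ : Gp ℓ) (b : ↥(B0K F (K1 M))) :
    ((((chartAction F).S σ).σ0 b : ↥(B0K F (K1 M))) : ↥(FK M (K1 M))) =
      arithmeticRingAut (modularFunctionFieldFull M)
        (resL (K1 M) (localGaloisToGlobal ℓ σ)) (b : ↥(FK M (K1 M))) := rfl

theorem coe_σ1 (σ : Gp ℓ) (b : ↥(B1K F (K1 M))) :
    ((((chartAction F).S σ).σ1 b : ↥(B1K F (K1 M))) : ↥(FK M (K1 M))) =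
      arithmeticRingAut (modularFunctionFieldFull M)
        (resL (K1 M) (localGaloisToGlobal ℓ σ)) (b : ↥(FK M (K1 M))) := rfl

theorem coe_σ01 (σ : Gp ℓ) (b : ↥(B0K F (K1 M) ⊔ B1K F (K1 M))) :
    ((((chartAction F).S σ).σ01 b : ↥(B0K F (K1 M) ⊔ B1K F (K1 M))) : ↥(FK M (K1 M))) =
      arithmeticRingAut (modularFunctionFieldFull M)
        (resL (K1 M) (localGaloisToGlobal ℓ σ)) (b : ↥(FK M (K1 M))) := rfl

end Fermat.Agent.T1.Assembly41.ChartAct
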