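/-
Fermat/Agent/T1/Assembly41/BcComp.lean  (helper41, programme T1A)

Functoriality of `JGroup85Pic.LinePic.bc` for arbitrary towers of cubes of rings (linear or
semilinear), and the corollaries for the hub `RedIface75.PicX`:

* `bc_comp`   : base change along a composite cube is the composite of the base changes;
* `bc_self`   : base change along the identity cube is the identity;
* `PicX.map_mapSemi` : the mixed square (linear base changes against semilinear ones);
* `PicX.mapSemi_comp`, `PicX.mapSemi_id`.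
-/
import Mathlib
import Fermat.Agent.T1.RedIface75
import Fermat.Agent.Jac.BaseChange75.Cube

set_option autoImplicit false

open TensorProduct

namespace Fermat.Agent.T1.Assembly41

open Fermat.Agent.Jac Fermat.Agent.Jac.JSmooth85Alg Fermat.Agent.Jac.JGroup85Pic
open Fermat.Agent.Jac.BaseChange75 Fermat.Agent.T1.RedIface75

universe u

section General

variable {A R0 R1 R01 A' R0' R1' R01' A'' R0'' R1'' R01'' : Type u}
  [CommRing A] [CommRing R0] [CommRing R1] [CommRing R01]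
  [Algebra A R0] [Algebra A R1] [Algebra A R01] [Algebra R0 R01] [Algebra R1 R01]
  [IsScalarTower A R0 R01] [IsScalarTower A R1 R01]
  [CommRing A'] [CommRing R0'] [CommRing R1'] [CommRing R01']
  [Algebra A' R0'] [Algebra A' R1'] [Algebra A' R01'] [Algebra R0' R01'] [Algebra R1' R01']
  [IsScalarTower A' R0' R01'] [IsScalarTower A' R1' R01']
  [CommRing A''] [CommRing R0''] [CommRing R1''] [CommRing R01'']
  [Algebra A'' R0''] [Algebra A'' R1''] [Algebra A'' R01''] [Algebra R0'' R01'']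
  [Algebra R1'' R01''] [IsScalarTower A'' R0'' R01''] [IsScalarTower A'' R1'' R01'']
  [Algebra R0 R0'] [Algebra R1 R1'] [Algebra R01 R01']
  [Algebra R0' R0''] [Algebra R1' R1''] [Algebra R01' R01'']
  [Algebra R0 R0''] [Algebra R1 R1''] [Algebra R01 R01'']
  [IsScalarTower R0 R0' R0''] [IsScalarTower R1 R1' R1''] [IsScalarTower R01 R01' R01'']

/-- **Base changes of line classes compose** (any tower of cubes of rings). -/
theorem bc_comp
    (hc0 : (algebraMap R0' R01').comp (algebraMap R0 R0') =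
      (algebraMap R01 R01').comp (algebraMap R0 R01))
    (hc1 : (algebraMap R1' R01').comp (algebraMap R1 R1') =
      (algebraMap R01 R01').comp (algebraMap R1 R01))
    (hc0' : (algebraMap R0'' R01'').comp (algebraMap R0' R0'') =
      (algebraMap R01' R01'').comp (algebraMap R0' R01'))
    (hc1' : (algebraMap R1'' R01'').comp (algebraMap R1' R1'') =
      (algebraMap R01' R01'').comp (algebraMap R1' R01'))
    (hc0'' : (algebraMap R0'' R01'').comp (algebraMap R0 R0'') =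
      (algebraMap R01 R01'').comp (algebraMap R0 R01))
    (hc1'' : (algebraMap R1'' R01'').comp (algebraMap R1 R1'') =
      (algebraMap R01 R01'').comp (algebraMap R1 R01))
    (c : TwoChart A R0 R1 R01) (c' : TwoChart A' R0' R1' R01')
    (c'' : TwoChart A'' R0'' R1'' R01'') (x : LinePic c) :
    LinePic.bc hc0' hc1' c' c'' (LinePic.bc hc0 hc1 c c' x) = LinePic.bc hc0'' hc1'' c c'' x := by
  obtain ⟨L, hL, rfl⟩ := LinePic.exists_rep x
  rw [LinePic.bc_mk hc0 hc1 c c' hL (liftData_bcCube hc0 hc1 L),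
    LinePic.bc_mk hc0' hc1' c' c'' _ (liftData_bcCube hc0' hc1' (bcCube A' hc0 hc1 L)),
    LinePic.bc_mk hc0'' hc1'' c c'' hL
      (BaseChange75.LiftData.trans (liftData_bcCube hc0 hc1 L)
        (liftData_bcCube hc0' hc1' (bcCube A' hc0 hc1 L)))]

end General

section Self

variable {A R0 R1 R01 : Type u} [CommRing A] [CommRing R0] [CommRing R1] [CommRing R01]
  [Algebra A R0] [Algebra A R1] [Algebra A R01] [Algebra R0 R01] [Algebra R1 R01]
  [IsScalarTower A R0 R01] [IsScalarTower A R1 R01]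

/-- Base change along the identity cube is the identity. -/
theorem bc_self (c : TwoChart A R0 R1 R01)
    (hc0 : (algebraMap R0 R01).comp (algebraMap R0 R0) =
      (algebraMap R01 R01).comp (algebraMap R0 R01))
    (hc1 : (algebraMap R1 R01).comp (algebraMap R1 R1) =
      (algebraMap R01 R01).comp (algebraMap R1 R01)) (x : LinePic c) :
    LinePic.bc hc0 hc1 c c x = x := by
  obtain ⟨L, hL, rfl⟩ := LinePic.exists_rep x
  rw [LinePic.bc_mk hc0 hc1 c c hL (BaseChange75.LiftData.refl L)]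

end Self

/-! ### The hub: mixed squares -/

section Mixed

open scoped Fermat.Agent.Jac.BaseChange75

variable {W B0 B1 B01 : Type u} [CommRing W] [CommRing B0] [CommRing B1] [CommRing B01]
  [Algebra W B0] [Algebra W B1] [Algebra W B01] [Algebra B0 B01] [Algebra B1 B01]
  [IsScalarTower W B0 B01] [IsScalarTower W B1 B01]
  {c0 : TwoChart W B0 B1 B01} (S : ChartAut c0)
  {A A' A1 A1' : Type u} [CommRing A] [CommRing A'] [CommRing A1] [CommRing A1']
  [Algebra W A] [Algebra W A'] [Algebra W A1] [Algebra W A1']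
  [Algebra A A1] [IsScalarTower W A A1] [Algebra A' A1'] [IsScalarTower W A' A1']

/-- The two ways around a mixed square of tensor maps agree. -/
theorem semiTensor_square {B : Type u} [CommRing B] [Algebra W B] (τ : B →+* B)
    (hτ : ∀ (w : W) (b : B), τ (w • b) = S.σW w • τ b)
    (f : A →+* A') (hf : ∀ (w : W) (a : A), f (w • a) = S.σW w • f a)
    (f1 : A1 →+* A1') (hf1 : ∀ (w : W) (a : A1), f1 (w • a) = S.σW w • f1 a)
    (hsq : ∀ a : A, f1 (algebraMap A A1 a) = algebraMap A' A1' (f a)) (x : A ⊗[W] B) :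
    algebraMap (A' ⊗[W] B) (A1' ⊗[W] B) (semiTensor S.σW f τ hf hτ x) =
      semiTensor S.σW f1 τ hf1 hτ (algebraMap (A ⊗[W] B) (A1 ⊗[W] B) x) := by
  induction x using TensorProduct.induction_on with
  | zero => simp
  | add x y hx hy => rw [map_add, map_add, map_add, map_add, hx, hy]
  | tmul a b => simp [hsq]

/-- **The mixed square**: semilinear base change commutes with linear base change. -/
theorem PicX.map_mapSemi
    (f : A →+* A') (hf : ∀ (w : W) (a : A), f (w • a) = S.σW w • f a)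
    (f1 : A1 →+* A1') (hf1 : ∀ (w : W) (a : A1), f1 (w • a) = S.σW w • f1 a)
    (hsq : ∀ a : A, f1 (algebraMap A A1 a) = algebraMap A' A1' (f a)) (y : PicX c0 A) :
    PicX.map c0 A' A1' (PicX.mapSemi S f hf y) =
      PicX.mapSemi S f1 hf1 (PicX.map c0 A A1 y) := by
  letI a0 : Algebra (A ⊗[W] B0) (A' ⊗[W] B0) := (semiTensor S.σW f S.σ0 hf S.semi0).toAlgebra
  letI a1 : Algebra (A ⊗[W] B1) (A' ⊗[W] B1) := (semiTensor S.σW f S.σ1 hf S.semi1).toAlgebra
  letI a01 : Algebra (A ⊗[W] B01) (A' ⊗[W] B01) :=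
    (semiTensor S.σW f S.σ01 hf S.semi01).toAlgebra
  letI b0 : Algebra (A1 ⊗[W] B0) (A1' ⊗[W] B0) :=
    (semiTensor S.σW f1 S.σ0 hf1 S.semi0).toAlgebra
  letI b1 : Algebra (A1 ⊗[W] B1) (A1' ⊗[W] B1) :=
    (semiTensor S.σW f1 S.σ1 hf1 S.semi1).toAlgebra
  letI b01 : Algebra (A1 ⊗[W] B01) (A1' ⊗[W] B01) :=
    (semiTensor S.σW f1 S.σ01 hf1 S.semi01).toAlgebra
  letI d0 : Algebra (A ⊗[W] B0) (A1' ⊗[W] B0) :=
    ((algebraMap (A' ⊗[W] B0) (A1' ⊗[W] B0)).comp
      (algebraMap (A ⊗[W] B0) (A' ⊗[W] B0))).toAlgebra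
  letI d1 : Algebra (A ⊗[W] B1) (A1' ⊗[W] B1) :=
    ((algebraMap (A' ⊗[W] B1) (A1' ⊗[W] B1)).comp
      (algebraMap (A ⊗[W] B1) (A' ⊗[W] B1))).toAlgebra
  letI d01 : Algebra (A ⊗[W] B01) (A1' ⊗[W] B01) :=
    ((algebraMap (A' ⊗[W] B01) (A1' ⊗[W] B01)).comp
      (algebraMap (A ⊗[W] B01) (A' ⊗[W] B01))).toAlgebra
  haveI t0 : IsScalarTower (A ⊗[W] B0) (A' ⊗[W] B0) (A1' ⊗[W] B0) :=
    IsScalarTower.of_algebraMap_eq (fun _ => rfl)
  haveI t1 : IsScalarTower (A ⊗[W] B1) (A' ⊗[W] B1) (A1' ⊗[W] B1) :=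
    IsScalarTower.of_algebraMap_eq (fun _ => rfl)
  haveI t01 : IsScalarTower (A ⊗[W] B01) (A' ⊗[W] B01) (A1' ⊗[W] B01) :=
    IsScalarTower.of_algebraMap_eq (fun _ => rfl)
  haveI s0 : IsScalarTower (A ⊗[W] B0) (A1 ⊗[W] B0) (A1' ⊗[W] B0) :=
    IsScalarTower.of_algebraMap_eq (fun x => semiTensor_square S S.σ0 S.semi0 f hf f1 hf1 hsq x)
  haveI s1 : IsScalarTower (A ⊗[W] B1) (A1 ⊗[W] B1) (A1' ⊗[W] B1) :=
    IsScalarTower.of_algebraMap_eq (fun x => semiTensor_square S S.σ1 S.semi1 f hf f1 hf1 hsq x)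
  haveI s01 : IsScalarTower (A ⊗[W] B01) (A1 ⊗[W] B01) (A1' ⊗[W] B01) :=
    IsScalarTower.of_algebraMap_eq
      (fun x => semiTensor_square S S.σ01 S.semi01 f hf f1 hf1 hsq x)
  have hd0 : (algebraMap (A1' ⊗[W] B0) (A1' ⊗[W] B01)).comp
      (algebraMap (A ⊗[W] B0) (A1' ⊗[W] B0)) =
      (algebraMap (A ⊗[W] B01) (A1' ⊗[W] B01)).comp
        (algebraMap (A ⊗[W] B0) (A ⊗[W] B01)) := by
    show (algebraMap (A1' ⊗[W] B0) (A1' ⊗[W] B01)).comp
        ((algebraMap (A' ⊗[W] B0) (A1' ⊗[W] B0)).comp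
          (algebraMap (A ⊗[W] B0) (A' ⊗[W] B0))) =
      ((algebraMap (A' ⊗[W] B01) (A1' ⊗[W] B01)).comp
        (algebraMap (A ⊗[W] B01) (A' ⊗[W] B01))).comp (algebraMap (A ⊗[W] B0) (A ⊗[W] B01))
    have e0 : (algebraMap (A' ⊗[W] B0) (A' ⊗[W] B01)).comp
        (algebraMap (A ⊗[W] B0) (A' ⊗[W] B0)) =
        (algebraMap (A ⊗[W] B01) (A' ⊗[W] B01)).comp (algebraMap (A ⊗[W] B0) (A ⊗[W] B01)) :=
      S.square0 f hf
    rw [← RingHom.comp_assoc, square_comm W A' A1' B0 B01, RingHom.comp_assoc, e0,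
      RingHom.comp_assoc]
  have hd1 : (algebraMap (A1' ⊗[W] B1) (A1' ⊗[W] B01)).comp
      (algebraMap (A ⊗[W] B1) (A1' ⊗[W] B1)) =
      (algebraMap (A ⊗[W] B01) (A1' ⊗[W] B01)).comp
        (algebraMap (A ⊗[W] B1) (A ⊗[W] B01)) := by
    show (algebraMap (A1' ⊗[W] B1) (A1' ⊗[W] B01)).comp
        ((algebraMap (A' ⊗[W] B1) (A1' ⊗[W] B1)).comp
          (algebraMap (A ⊗[W] B1) (A' ⊗[W] B1))) =
      ((algebraMap (A' ⊗[W] B01) (A1' ⊗[W] B01)).comp
        (algebraMap (A ⊗[W] B01) (A' ⊗[W] B01))).comp (algebraMap (A ⊗[W] B1) (A ⊗[W] B01))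
    have e1 : (algebraMap (A' ⊗[W] B1) (A' ⊗[W] B01)).comp
        (algebraMap (A ⊗[W] B1) (A' ⊗[W] B1)) =
        (algebraMap (A ⊗[W] B01) (A' ⊗[W] B01)).comp (algebraMap (A ⊗[W] B1) (A ⊗[W] B01)) :=
      S.square1 f hf
    rw [← RingHom.comp_assoc, square_comm W A' A1' B1 B01, RingHom.comp_assoc, e1,
      RingHom.comp_assoc]
  have hL : PicX.map c0 A' A1' (PicX.mapSemi S f hf y) =
      LinePic.bc hd0 hd1 (c0.baseChange A) (c0.baseChange A1') y :=
    bc_comp (S.square0 f hf) (S.square1 f hf) (square_comm W A' A1' B0 B01)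
      (square_comm W A' A1' B1 B01) hd0 hd1 (c0.baseChange A) (c0.baseChange A')
      (c0.baseChange A1') y
  have hR : PicX.mapSemi S f1 hf1 (PicX.map c0 A A1 y) =
      LinePic.bc hd0 hd1 (c0.baseChange A) (c0.baseChange A1') y :=
    bc_comp (square_comm W A A1 B0 B01) (square_comm W A A1 B1 B01) (S.square0 f1 hf1)
      (S.square1 f1 hf1) hd0 hd1 (c0.baseChange A) (c0.baseChange A1)
      (c0.baseChange A1') y
  exact hL.trans hR.symm

end Mixed

end Fermat.Agent.T1.Assembly41
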