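/-
Fermat/Agent/T1/Assembly41/HubToMod.lean  (helper41, programme T1A, brick G9-H3)

From the HUB (Picard groups of the two-chart curve over the DVR `O = A ∩ L` and its fraction field
`L ⊂ ℚ̄`, with coordinates on the kernel of reduction, Galois action, and a small model `J` of the
relevant subgroup of `Pic X_L`) to the arithmetic local analytic group data `ModCoordData`
(`Assembly41/ModCoord.lean`), which helper9's `Lift9` turns into ALG's `DiscGroupDataTrunc`.

Everything is abstract: the inputs are the fields of `HubData`.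
-/
import Mathlib
import Fermat.Agent.T1.Assembly41.ModCoord
import Fermat.Agent.T1.Assembly41.BcComp
import Fermat.Agent.T1.Red20.CoordSemi

set_option autoImplicit false
set_option linter.unusedSectionVars false

noncomputable section

open TensorProduct

namespace Fermat.Agent.T1.Assembly41

open Fermat.Agent.Jac Fermat.Agent.T1.RedIface75 Fermat.Agent.TW.B5.Iface
open Fermat.Agent.T1.Red20.CoordFun Fermat.Agent.T1.Red20.CoordMap
open Fermat.Agent.T1.Red20.CoordSemi Fermat.Agent.T1.AlgIface47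

variable (ℓ : ℕ) [Fact ℓ.Prime]
variable {W B0 B1 B01 : Type} [CommRing W] [CommRing B0] [CommRing B1] [CommRing B01]
  [Algebra W B0] [Algebra W B1] [Algebra W B01] [Algebra B0 B01] [Algebra B1 B01]
  [IsScalarTower W B0 B01] [IsScalarTower W B1 B01]
  (c0 : TwoChart W B0 B1 B01) {g : ℕ} (b : Fin g → B01)
  (O L : Type) [CommRing O] [IsDomain O] [IsDiscreteValuationRing O] [Algebra W O]
  [Field L] [Algebra W L] [Algebra O L] [IsScalarTower W O L] [IsFractionRing O L]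

/-- **The hub data** for one finite Galois module `M` (in the application `M = J₀(M)[ℓ^k]`,
`O = A ∩ L`, `L` a big Galois number field, `J` a small model of the subgroup of `Pic X_L`
generated by the classes of `L`-points). -/
structure HubData (J M : Type) [AddCommGroup J] [AddCommGroup M] (actM : Gp ℓ → M → M) where
  /-- the embedding `L ⊂ ℚ̄` -/
  jL : L →+* Qb
  jL_int : ∀ x : O, ‖padicEmbedding ℓ (jL (algebraMap O L x))‖ ≤ 1
  /-- the ramification index -/
  e : ℕ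
  e_pos : 1 ≤ e
  mem_pow : ∀ (x : O) (n : ℕ), x ∈ IsLocalRing.maximalIdeal O ^ (e * n) ↔
    ‖padicEmbedding ℓ (jL (algebraMap O L x))‖ ≤ ‖((ℓ : ℕ) : Kbar ℓ)‖ ^ n
  div_pow : ∀ (x : O) (n : ℕ), x ∈ IsLocalRing.maximalIdeal O ^ (e * n) →
    ∃ z : O, x = ((ℓ : ℕ) : O) ^ n * z
  mem_max : ∀ x : O, x ∈ IsLocalRing.maximalIdeal O ↔
    ‖padicEmbedding ℓ (jL (algebraMap O L x))‖ < 1
  field : ∃ E : IntermediateField ℚ_[ℓ] (Kbar ℓ), FiniteDimensional ℚ_[ℓ] E ∧
    ∀ x : L, padicEmbedding ℓ (jL x) ∈ E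
  /-- the Galois structure -/
  S : Gp ℓ → ChartAut c0
  fO : Gp ℓ → O →+* O
  fO_local : ∀ σ, IsLocalHom (fO σ)
  fO_semi : ∀ σ (w : W) (a : O), fO σ (w • a) = (S σ).σW w • fO σ a
  fL : Gp ℓ → L →+* L
  fL_semi : ∀ σ (w : W) (a : L), fL σ (w • a) = (S σ).σW w • fL σ a
  fOL : ∀ σ (a : O), fL σ (algebraMap O L a) = algebraMap O L (fO σ a)
  jL_fL : ∀ σ (x : L), jL (fL σ x) = localGaloisToGlobal ℓ σ (jL x)
  hb : ∀ σ i, (S σ).σ01 (b i) = b i
  /-- the REDUCTION bricks -/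
  hEU : CoordExistsUnique c0 O b
  hInj : CoordInjective c0 O
  hExt : ExtInjective c0 O L
  /-- the group law -/
  m : ℕ
  m_ndvd : ¬ ℓ ∣ m
  W_mu : ∀ w : W, padicEmbedding ℓ (jL (algebraMap W L w)) ∈
    intSubring ℓ (Fermat.Agent.TW.B5.LG83W.muField ℓ m)
  F : ℕ → Fin g → MvPolynomial (Fin g ⊕ Fin g) W
  hF : ∀ n, GroupLawAt b c0 O n (polyLaw (F n))
  /-- the small model of the Picard group of the generic fibre -/
  φ : J →+ Additive (PicX c0 L)
  φ_inj : Function.Injective φ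
  act : Gp ℓ → J →+ J
  act_one : ∀ x, act 1 x = x
  act_mul : ∀ σ τ x, act (σ * τ) x = act σ (act τ x)
  φ_act : ∀ σ x, Additive.toMul (φ (act σ x)) =
    PicX.mapSemi (S σ) (fL σ) (fL_semi σ) (Additive.toMul (φ x))
  /-- the finite module -/
  emb : M →+ J
  emb_inj : Function.Injective emb
  emb_equiv : ∀ σ y, emb (actM σ y) = act σ (emb y)
  centres : ∀ y : M, ∃ x : J,
    (∃ z ∈ J1 c0 O, PicX.map c0 O L z = Additive.toMul (φ (emb y - x))) ∧
    ∃ E : IntermediateField ℚ_[ℓ] (Kbar ℓ), FiniteDimensional ℚ_[ℓ] E ∧ IsUnramifiedField ℓ E ∧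
      ∀ σ : Gp ℓ, (∀ e ∈ E, σ e = e) → act σ x = x

variable {ℓ c0 b O L}
variable {J M : Type} [AddCommGroup J] [AddCommGroup M] {actM : Gp ℓ → M → M}
  (D : HubData ℓ c0 b O L J M actM)

namespace HubData

/-- The class in `Pic X_L` of an element of the small model. -/
def cl (x : J) : PicX c0 L := Additive.toMul (D.φ x)

theorem cl_add (x y : J) : D.cl (x + y) = D.cl x * D.cl y := by
  unfold cl; rw [map_add]; rfl

theorem cl_zero : D.cl 0 = 1 := by
  unfold cl; rw [map_zero]; rfl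

theorem cl_neg (x : J) : D.cl (-x) = (D.cl x)⁻¹ := by
  unfold cl; rw [map_neg]; rfl

theorem cl_inj {x y : J} (h : D.cl x = D.cl y) : x = y :=
  D.φ_inj (Additive.toMul.injective h)

theorem cl_act (σ : Gp ℓ) (x : J) :
    D.cl (D.act σ x) = PicX.mapSemi (D.S σ) (D.fL σ) (D.fL_semi σ) (D.cl x) := D.φ_act σ x

/-- The kernel of reduction inside the small model. -/
def J1 : AddSubgroup J where
  carrier := {x | ∃ z ∈ RedIface75.J1 c0 O, PicX.map c0 O L z = D.cl x}
  zero_mem' := ⟨1, Subgroup.one_mem _, by rw [map_one, D.cl_zero]⟩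
  add_mem' := by
    rintro x y ⟨z, hz, hzx⟩ ⟨z', hz', hzy⟩
    exact ⟨z * z', Subgroup.mul_mem _ hz hz', by rw [map_mul, hzx, hzy, D.cl_add]⟩
  neg_mem' := by
    rintro x ⟨z, hz, hzx⟩
    exact ⟨z⁻¹, Subgroup.inv_mem _ hz, by rw [map_inv, hzx, D.cl_neg]⟩

theorem mem_J1 {x : J} : x ∈ D.J1 ↔ ∃ z ∈ RedIface75.J1 c0 O, PicX.map c0 O L z = D.cl x :=
  Iff.rfl

open Classical in
/-- The extension of a class of `J1` to `X_O` (junk outside `J1`). -/
def extO (x : J) : RedIface75.J1 c0 O :=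
  if h : ∃ z ∈ RedIface75.J1 c0 O, PicX.map c0 O L z = D.cl x then ⟨h.choose, h.choose_spec.1⟩
  else 1

open Classical in
theorem map_ext {x : J} (hx : x ∈ D.J1) :
    PicX.map c0 O L (D.extO x : PicX c0 O) = D.cl x := by
  have hx' : ∃ z ∈ RedIface75.J1 c0 O, PicX.map c0 O L z = D.cl x := hx
  unfold extO
  rw [dif_pos hx']
  exact hx'.choose_spec.2

theorem ext_eq {x : J} (z : RedIface75.J1 c0 O)
    (hz : PicX.map c0 O L (z : PicX c0 O) = D.cl x) : D.extO x = z := by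
  have hx : x ∈ D.J1 := ⟨z, z.2, hz⟩
  apply Subtype.ext
  apply D.hExt
  rw [D.map_ext hx, hz]

theorem ext_add {x y : J} (hx : x ∈ D.J1) (hy : y ∈ D.J1) :
    D.extO (x + y) = D.extO x * D.extO y := by
  apply D.ext_eq
  rw [Subgroup.coe_mul, map_mul, D.map_ext hx, D.map_ext hy, D.cl_add]

/-- The mixed square `O → L` against the Galois action. -/
theorem map_mapSemi_OL (σ : Gp ℓ) (z : PicX c0 O) :
    haveI := D.fO_local σ
    PicX.map c0 O L (PicX.mapSemi (D.S σ) (D.fO σ) (D.fO_semi σ) z) =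
      PicX.mapSemi (D.S σ) (D.fL σ) (D.fL_semi σ) (PicX.map c0 O L z) :=
  PicX.map_mapSemi (D.S σ) (D.fO σ) (D.fO_semi σ) (D.fL σ) (D.fL_semi σ)
    (fun a => D.fOL σ a) z

theorem J1_stable (σ : Gp ℓ) {x : J} (hx : x ∈ D.J1) : D.act σ x ∈ D.J1 := by
  haveI := D.fO_local σ
  obtain ⟨z, hz, hzx⟩ := hx
  refine ⟨PicX.mapSemi (D.S σ) (D.fO σ) (D.fO_semi σ) z,
    mapSemi_mem_J1 (D.S σ) (D.fO σ) (D.fO_semi σ) hz, ?_⟩
  rw [D.map_mapSemi_OL σ z, hzx, D.cl_act]

theorem ext_act (σ : Gp ℓ) {x : J} (hx : x ∈ D.J1) :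
    haveI := D.fO_local σ
    D.extO (D.act σ x) = J1mapSemi (D.S σ) (D.fO σ) (D.fO_semi σ) (D.extO x) := by
  haveI := D.fO_local σ
  apply D.ext_eq
  rw [coe_J1mapSemi, D.map_mapSemi_OL σ _, D.map_ext hx, D.cl_act]

end HubData

end Fermat.Agent.T1.Assembly41
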