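/-
Fermat/Agent/T1/Assembly41/FinalIface.lean  (helper41, lead of programme T1A = S19 + S32)

THE FINAL INTERFACE of the geometric half of T1A.  Fixed data: a prime `ℓ`, a level `M` with
`ℓ ∤ M`, the place `A = padicPlace ℓ` of `ℚ̄`, `K₁ = ℚ(ζ_M)`, `W = A ∩ K₁`, a two-chart system
`c0 : TwoChart W B0 B1 B01` over `W` (the model of `X₀(M)`, brick G0), a family `b : Fin g → B01`
(a Čech basis of `H¹(O_X)`), and an action `H` of `G_ℓ` on the chart system (brick G9-H6).

For every finite normal `L ⊇ K₁` inside `ℚ̄` we get the DVR `O_L = A ∩ L`, the semilinear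
actions `semiO`, `semiL` of `G_ℓ` on `O_L`, `L`, and the Props

* `HubRedAt`   (REDUCTION + FORMAL bricks at `O_L`)                       — brick G9-H5
* `DictFinal`  (the torsion of `J₀(M)` as classes of `L`-points)          — brick G7
* `CentresFinal` (unramified centres)                                     — brick G9-H7
* `NormsAt`    (`𝔪`-adic topology of `O_L` versus the `ℓ`-adic norm)      — brick G9-C2

`Final.lean` proves: these Props ⟹ `∃ J, Nonempty (ModCoordData ℓ J (J₀(M)[ℓ^k]) …)`.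
-/
import Mathlib
import Fermat.Agent.T1.Assembly41.HubToMod
import Fermat.Agent.T1.HubInst98.Incl
import Fermat.Agent.T1.HubInst98.Galois
import Fermat.Agent.T1.HubInst98.Cyclo
import Fermat.Agent.T1.GalAct44
import Fermat.Agent.T1.PtLine75
import Fermat.Agent.Flat44.S19Target

set_option autoImplicit false
set_option linter.unusedSectionVars false
set_option linter.style.haveILetI false

noncomputable section

open TensorProduct

namespace Fermat.Agent.T1.Assembly41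

open Fermat.Agent Fermat.Agent.Jac Fermat.Agent.T1.RedIface75 Fermat.Agent.TW.B5.Iface
open Fermat.Agent.T1.AlgIface47 Fermat.Agent.T1.HubInst98 Fermat.Agent.T1.GalAct44
open Fermat.Agent.RED.Interface4 Fermat.Agent.Flat44
open Fermat.Agent.T1.Red20.CoordFun
open ModularCurve

variable (ℓ : ℕ) [Fact ℓ.Prime] (M : ℕ) [NeZero M]

/-- `W = A ∩ ℚ(ζ_M)`, `A = padicPlace ℓ`. -/
abbrev Wr : Type := ↥(AK (padicPlace ℓ) (K1 M))

/-- `O_L = A ∩ L`. -/
abbrev OL (L : IntermediateField ℚ Qbar) : Type := ↥(AK (padicPlace ℓ) L)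

/-- The `ℓ^k`-torsion of `J₀(M)` as a type. -/
abbrev TorsM (k : ℕ) : Type := ↥(Submodule.torsionBy ℤ (JZero M) ((ℓ : ℤ) ^ k))

/-- The local Galois action on `J₀(M)[ℓ^k]` (restriction along `localGaloisToGlobal ℓ`). -/
def locActM (k : ℕ) (σ : Gp ℓ) : TorsM ℓ M k → TorsM ℓ M k :=
  torsionAct M ((ℓ : ℤ) ^ k) (localGaloisToGlobal ℓ σ)

section Hub

variable {B0 B1 B01 : Type} [CommRing B0] [CommRing B1] [CommRing B01]
  [Algebra (Wr ℓ M) B0] [Algebra (Wr ℓ M) B1] [Algebra (Wr ℓ M) B01] [Algebra B0 B01]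
  [Algebra B1 B01] [IsScalarTower (Wr ℓ M) B0 B01] [IsScalarTower (Wr ℓ M) B1 B01]
  (c0 : TwoChart (Wr ℓ M) B0 B1 B01) {g : ℕ} (b : Fin g → B01)
  (H : ChartAction c0 (Gp ℓ))

/-- The chart action restricted to the constants `W` is the Galois action on `A ∩ K₁`. -/
def WCompat : Prop :=
  ∀ (σ : Gp ℓ) (w : Wr ℓ M), (H.S σ).σW w = resOloc (K1 M) ℓ σ w

variable {ℓ M c0 H}

/-- The semilinear action of `G_ℓ` on `O_L = A ∩ L`. -/
def semiO (hW : WCompat ℓ M c0 H) (L : IntermediateField ℚ Qbar) [Normal ℚ L]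
    (hle : K1 M ≤ L) :
    letI := algAK (padicPlace ℓ) hle
    SemiAction H (OL ℓ L) :=
  letI := algAK (padicPlace ℓ) hle
  { f := fun σ => (resOloc L ℓ σ : OL ℓ L →+* OL ℓ L)
    one := by
      rw [resOloc_one]; rfl
    mul := fun σ τ => by
      ext x : 1
      exact resOloc_mul_apply L ℓ σ τ x
    semi := fun σ w a => by
      rw [hW σ w]
      exact resO_smul (padicPlace ℓ) hle (localGaloisToGlobal ℓ σ)
        (preserves_localGaloisToGlobal ℓ σ) w a }

/-- The semilinear action of `G_ℓ` on `L`. -/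
def semiL (hW : WCompat ℓ M c0 H) (L : IntermediateField ℚ Qbar) [Normal ℚ L]
    (hle : K1 M ≤ L) :
    letI := algAKL (padicPlace ℓ) hle
    SemiAction H ↥L :=
  letI := algAKL (padicPlace ℓ) hle
  { f := fun σ => (resL L (localGaloisToGlobal ℓ σ) : ↥L →+* ↥L)
    one := by
      rw [map_one, resL_one]; rfl
    mul := fun σ τ => by
      ext x : 1
      rw [map_mul]
      exact resL_mul_apply L _ _ x
    semi := fun σ w a => by
      rw [hW σ w]
      exact resL_smul (padicPlace ℓ) hle (localGaloisToGlobal ℓ σ)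
        (preserves_localGaloisToGlobal ℓ σ) w a }

/-! ### The Props -/

section Props

variable (ℓ M c0 H)

/-- Three-level tower `W → L₁ → L`. -/
theorem isScalarTower_W_L_L {L₁ L : IntermediateField ℚ Qbar} (hle : K1 M ≤ L₁) (hL : L₁ ≤ L) :
    letI := algAKL (padicPlace ℓ) hle
    letI := algAKL (padicPlace ℓ) (hle.trans hL)
    letI := algKL hL
    IsScalarTower (Wr ℓ M) ↥L₁ ↥L := by
  letI := algAKL (padicPlace ℓ) hle
  letI := algAKL (padicPlace ℓ) (hle.trans hL)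
  letI := algKL hL
  exact IsScalarTower.of_algebraMap_eq' rfl

/-- `O_L` is a DVR. -/
theorem isDVR_OL (L : IntermediateField ℚ Qbar) [FiniteDimensional ℚ L] :
    IsDiscreteValuationRing (OL ℓ L) :=
  isDVR_AK (padicPlace ℓ) (Fact.out : ℓ.Prime).ne_zero
    (Fermat.Agent.T1.LocModel46.liesOverPrime ℓ) L

/-- **REDUCTION + FORMAL at `O_L`** (brick G9-H5 HUB-RED): coordinates exist, are unique and
jointly injective, `Pic X_{O_L} → Pic X_L` is injective, and the coordinates are additive for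
polynomial group laws over `W`. -/
def HubRedAt (L : IntermediateField ℚ Qbar) [FiniteDimensional ℚ L] (hle : K1 M ≤ L) : Prop :=
  letI := algAK (padicPlace ℓ) hle
  letI := algAKL (padicPlace ℓ) hle
  haveI := isScalarTower_AK (padicPlace ℓ) hle
  haveI := isDVR_OL ℓ L
  CoordExistsUnique c0 (OL ℓ L) b ∧ CoordInjective c0 (OL ℓ L) ∧
    ExtInjective c0 (OL ℓ L) ↥L ∧
    ∀ n : ℕ, ∃ F : Fin g → MvPolynomial (Fin g ⊕ Fin g) (Wr ℓ M),
      GroupLawAt b c0 (OL ℓ L) n (polyLaw F)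

/-- **The `𝔪`-adic topology of `O_L` versus the `ℓ`-adic norm** (brick G9-C2 NORMS). -/
def NormsAt (L : IntermediateField ℚ Qbar) [FiniteDimensional ℚ L] : Prop :=
  ∃ e : ℕ, 1 ≤ e ∧
    (∀ (x : OL ℓ L) (n : ℕ), x ∈ IsLocalRing.maximalIdeal (OL ℓ L) ^ (e * n) ↔
      ‖padicEmbedding ℓ (jL L (algebraMap (OL ℓ L) ↥L x))‖ ≤ ‖((ℓ : ℕ) : Kbar ℓ)‖ ^ n) ∧
    (∀ (x : OL ℓ L) (n : ℕ), x ∈ IsLocalRing.maximalIdeal (OL ℓ L) ^ (e * n) →
      ∃ z : OL ℓ L, x = ((ℓ : ℕ) : OL ℓ L) ^ n * z) ∧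
    (∀ x : OL ℓ L, x ∈ IsLocalRing.maximalIdeal (OL ℓ L) ↔
      ‖padicEmbedding ℓ (jL L (algebraMap (OL ℓ L) ↥L x))‖ < 1) ∧
    ∃ E : IntermediateField ℚ_[ℓ] (Kbar ℓ), FiniteDimensional ℚ_[ℓ] E ∧
      ∀ x : ↥L, padicEmbedding ℓ (jL L x) ∈ E

/-- **The constants are unramified**: `ι(W) ⊆` integers of `ℚ_ℓ(μ_M)`. -/
def WMu : Prop :=
  ∀ w : Wr ℓ M, padicEmbedding ℓ (jL (K1 M) (algebraMap (Wr ℓ M) ↥(K1 M) w)) ∈
    intSubring ℓ (Fermat.Agent.TW.B5.LG83W.muField ℓ M)

/-- **DICT-FINAL** (brick G7): the `ℓ^k`-torsion of `J₀(M)` as classes of `L`-points of the hub,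
compatibly with the Galois action and with enlarging `L`. -/
def DictFinal (hW : WCompat ℓ M c0 H) (k : ℕ) : Prop :=
  ∃ L₀ : IntermediateField ℚ Qbar, FiniteDimensional ℚ L₀ ∧
    ∀ (L₁ : IntermediateField ℚ Qbar) [FiniteDimensional ℚ L₁] [Normal ℚ L₁]
      (hle₁ : K1 M ≤ L₁), L₀ ≤ L₁ →
      letI := algAKL (padicPlace ℓ) hle₁
      ∃ d₁ : TorsM ℓ M k → PicX c0 ↥L₁,
        (∀ y, d₁ y ∈ (PtLine75.pointClasses c0).PicPt ↥L₁) ∧
        ∀ (L : IntermediateField ℚ Qbar) [FiniteDimensional ℚ L] [Normal ℚ L] (hL : L₁ ≤ L),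
          letI := algAKL (padicPlace ℓ) (hle₁.trans hL)
          letI := algKL hL
          haveI := isScalarTower_W_L_L ℓ M hle₁ hL
          ∃ d : TorsM ℓ M k → PicX c0 ↥L,
            (∀ x y, d (x + y) = d x * d y) ∧ Function.Injective d ∧
            (∀ y, d y ∈ (PtLine75.pointClasses c0).PicPt ↥L) ∧
            (∀ σ y, d (locActM ℓ M k σ y) = actPic H (semiL hW L (hle₁.trans hL)) σ (d y)) ∧
            ∀ y, PicX.map c0 ↥L₁ ↥L (d₁ y) = d y

/-- **CENTRES-FINAL** (brick G9-H7): finitely many classes of `L₁`-points have, over a bigger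
field `L`, unramified centres: classes of `L`-points `x` fixed by an open subgroup of `G_ℓ`
containing the inertia group, such that `z · x⁻¹` extends to a class on `X_{O_L}` with trivial
special fibre. -/
def CentresFinal (hW : WCompat ℓ M c0 H) : Prop :=
  ∀ (L₁ : IntermediateField ℚ Qbar) [FiniteDimensional ℚ L₁] [Normal ℚ L₁] (hle₁ : K1 M ≤ L₁),
    letI := algAKL (padicPlace ℓ) hle₁
    ∀ (I : Type) [Finite I] (z : I → PicX c0 ↥L₁),
      (∀ i, z i ∈ (PtLine75.pointClasses c0).PicPt ↥L₁) →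
      ∃ (L : IntermediateField ℚ Qbar) (_ : FiniteDimensional ℚ L) (_ : Normal ℚ L)
        (hL : L₁ ≤ L),
        letI := algAK (padicPlace ℓ) (hle₁.trans hL)
        letI := algAKL (padicPlace ℓ) (hle₁.trans hL)
        haveI := isScalarTower_AK (padicPlace ℓ) (hle₁.trans hL)
        haveI := isDVR_OL ℓ L
        letI := algKL hL
        haveI := isScalarTower_W_L_L ℓ M hle₁ hL
        ∀ i, ∃ x ∈ (PtLine75.pointClasses c0).PicPt ↥L,
          (∃ w ∈ J1 c0 (OL ℓ L),
            PicX.map c0 (OL ℓ L) ↥L w = PicX.map c0 ↥L₁ ↥L (z i) * x⁻¹) ∧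
          ∃ E : IntermediateField ℚ_[ℓ] (Kbar ℓ), FiniteDimensional ℚ_[ℓ] E ∧
            IsUnramifiedField ℓ E ∧
            ∀ σ : Gp ℓ, (∀ e ∈ E, σ e = e) →
              actPic H (semiL hW L (hle₁.trans hL)) σ x = x

end Props

end Hub


end Fermat.Agent.T1.Assembly41
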