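/-
Fermat/Agent/T1/Assembly41/ChartIsoConcrete.lean  (helper41, programme T1A = S19 + S32)

THE CONCRETE CHART ISOMORPHISM FAMILY (brick G7-C, concrete inputs) for the hub `Concrete.c0 F` with
the Galois action `ChartAct.chartAction F`:

* `β0 F`, `β1 F`, `β01 F` : the inclusions of the charts of the model over `W = A ∩ K₁` into `K₁·F_M`;
* `Dat L hle` : base change data between the models over `K₁` and over `L` (helper51), chosen with
  `iR = inclAK`, `iF = Dict59.cLL`;
* `E F L hle : ChartIso ((c0 F).baseChange L) (tK F L)` (helper20's `ChartIso20.chartIso`, transported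
  along `cLL (tK F K₁) = tK F L`);
* `isStdIso F L hle` : `E` is standard on pure tensors (helper90's `ChartIso90.IsStdIso`);
* `isCoord F L hle`, and `concreteFamily F : Dict59.ChartIsoFamily ℓ M (c0 F) (chartAction F)`.
-/
import Mathlib
import Fermat.Agent.T1.Assembly41.ChartActConcrete
import Fermat.Agent.T1.Assembly41.FastInst
import Fermat.Agent.T1.ModelBC51.NumFieldGlue
import Fermat.Agent.T1.ChartIso20
import Fermat.Agent.T1.ChartIsoFam90

set_option autoImplicit false
set_option linter.unusedSectionVars false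
set_option linter.unusedVariables false
set_option linter.style.haveILetI false
set_option synthInstance.maxHeartbeats 400000
set_option maxHeartbeats 1000000

noncomputable section

open TensorProduct

namespace Fermat.Agent.T1.Assembly41.ChartIsoC

open Fermat.Agent Fermat.Agent.Jac Fermat.Agent.T1.RedIface75 Fermat.Agent.TW.B5.Iface
open Fermat.Agent.T1.HubInst98 Fermat.Agent.T1.GalAct44
open Fermat.Agent.RED.Interface4 Fermat.Agent.RED.CORE.CoreIface24
open Fermat.Agent.RED.PUR.GaussGen8 Fermat.Agent.RED.PUR.ChartGeneric22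
open Fermat.Agent.T1.Coh60 Fermat.Agent.T1.Assembly41.Concrete
open Fermat.Agent.T1.ModelBC51.Abstract Fermat.Agent.T1.Adapt96 Fermat.Agent.T1.Dict59
open Fermat.Agent.T1.ChartIso90 Fermat.Agent.T1.ModelUnr4.Explicit
open Fermat.Agent.X0 ModularCurve
open Fermat.Agent.Jac.BaseChange75
open scoped Fermat.Agent.Jac.BaseChange75
open scoped Fermat.Agent.T1.Assembly41.FastInst

attribute [local instance] Coh60.algebra0 Coh60.algebra1 Coh60.isScalarTower0
  Coh60.isScalarTower1

/-! ### Transport of a `ChartIso` along an equality of coordinates -/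

section Cast

universe u v

variable {K R0 R1 R01 : Type u} [Field K] [CommRing R0] [CommRing R1] [CommRing R01]
  [Algebra K R0] [Algebra K R1] [Algebra K R01] [Algebra R0 R01] [Algebra R1 R01]
  [IsScalarTower K R0 R01] [IsScalarTower K R1 R01]
  {F : Type v} [Field F] [Algebra K F] {c : TwoChart K R0 R1 R01}

/-- transport along `t = t'`. -/
def castT {t t' : F} (h : t = t') (E : ChartIso c t) : ChartIso c t' := h ▸ E

theorem castT_e0 {t t' : F} (h : t = t') (E : ChartIso c t) (x : R0) :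
    (((castT h E).e0 x : ↥(C0 (K := K) t')) : F) = ((E.e0 x : ↥(C0 (K := K) t)) : F) := by
  subst h; rfl

theorem castT_e1 {t t' : F} (h : t = t') (E : ChartIso c t) (x : R1) :
    (((castT h E).e1 x : ↥(C1 (K := K) t')) : F) = ((E.e1 x : ↥(C1 (K := K) t)) : F) := by
  subst h; rfl

theorem castT_e01 {t t' : F} (h : t = t') (E : ChartIso c t) (x : R01) :
    (castT h E).e01 x = E.e01 x := by
  subst h; rfl

end Cast

variable {ℓ : ℕ} [Fact ℓ.Prime] {M : ℕ} [NeZero M] {n e : ℕ} [NeZero n]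

/-! ### The embeddings of the charts -/

section Beta

variable (F : ModelFamily ℓ M n e)

/-- chart 0 of the model over `W` inside `K₁·F_M`. -/
def β0 : ↥(B0K F (K1 M)) →+* ↥(FK M (K1 M)) := (B0K F (K1 M)).val.toRingHom

/-- chart 1 of the model over `W` inside `K₁·F_M`. -/
def β1 : ↥(B1K F (K1 M)) →+* ↥(FK M (K1 M)) := (B1K F (K1 M)).val.toRingHom

/-- the overlap of the model over `W` inside `K₁·F_M`. -/
def β01 : ↥(B0K F (K1 M) ⊔ B1K F (K1 M)) →+* ↥(FK M (K1 M)) :=
  (B0K F (K1 M) ⊔ B1K F (K1 M)).val.toRingHom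

@[simp] theorem β0_apply (b : ↥(B0K F (K1 M))) : β0 F b = (b : ↥(FK M (K1 M))) := rfl
@[simp] theorem β1_apply (b : ↥(B1K F (K1 M))) : β1 F b = (b : ↥(FK M (K1 M))) := rfl
@[simp] theorem β01_apply (b : ↥(B0K F (K1 M) ⊔ B1K F (K1 M))) :
    β01 F b = (b : ↥(FK M (K1 M))) := rfl

end Beta

/-! ### The base change data -/

section Data

variable (ℓ M)

theorem exists_dat (L : IntermediateField ℚ Qbar) [FiniteDimensional ℚ L] (hle : K1 M ≤ L) :
    ∃ D : BCData ↥(K1 M) ↥L (unif ℓ (K1 M)) (unif ℓ L)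
        (gaussVS (isUnif_AK (hA ℓ) (K1 M) (unif_irreducible ℓ (K1 M))) (FK M (K1 M))
          (FK_le_fracField_AK (padicPlace ℓ) (K1 M) M))
        (gaussVS (isUnif_AK (hA ℓ) L (unif_irreducible ℓ L)) (FK M L)
          (FK_le_fracField_AK (padicPlace ℓ) L M)),
      (∀ r, inclAK (padicPlace ℓ) hle r = D.iR r) ∧ D.iF = cLL M hle := by
  obtain ⟨hOO', hEE', D, hR, hK, hF, hincl, hc⟩ :=
    Fermat.Agent.T1.ModelBC51.NumFieldGlue.nonempty_bcData_AK (padicPlace ℓ) hle
      (Fact.out : ℓ.Prime).ne_zero (hA ℓ) M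
      (isUnif_AK (hA ℓ) (K1 M) (unif_irreducible ℓ (K1 M)))
      (isUnif_AK (hA ℓ) L (unif_irreducible ℓ L))
  exact ⟨D, hincl, hc⟩

/-- The chosen base change data `K₁ ⊂ L`. -/
def Dat (L : IntermediateField ℚ Qbar) [FiniteDimensional ℚ L] (hle : K1 M ≤ L) :
    BCData ↥(K1 M) ↥L (unif ℓ (K1 M)) (unif ℓ L)
      (gaussVS (isUnif_AK (hA ℓ) (K1 M) (unif_irreducible ℓ (K1 M))) (FK M (K1 M))
        (FK_le_fracField_AK (padicPlace ℓ) (K1 M) M))
      (gaussVS (isUnif_AK (hA ℓ) L (unif_irreducible ℓ L)) (FK M L)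
        (FK_le_fracField_AK (padicPlace ℓ) L M)) :=
  Classical.choose (exists_dat ℓ M L hle)

theorem Dat_iR (L : IntermediateField ℚ Qbar) [FiniteDimensional ℚ L] (hle : K1 M ≤ L)
    (r : Wr ℓ M) : inclAK (padicPlace ℓ) hle r = (Dat ℓ M L hle).iR r :=
  (Classical.choose_spec (exists_dat ℓ M L hle)).1 r

theorem Dat_iF (L : IntermediateField ℚ Qbar) [FiniteDimensional ℚ L] (hle : K1 M ≤ L) :
    (Dat ℓ M L hle).iF = cLL M hle :=
  (Classical.choose_spec (exists_dat ℓ M L hle)).2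

end Data

variable (F : ModelFamily ℓ M n e)

/-- `cLL (t_{K₁}) = t_L`. -/
theorem cLL_tK (L : IntermediateField ℚ Qbar) (hle : K1 M ≤ L) :
    cLL M hle (tK F (K1 M)) = tK F L := by
  rw [← Fermat.Agent.T1.ModelBC51.NumFieldGlue.iF_eq_cLL hle M]
  exact Fermat.Agent.T1.ModelBC51.NumFieldGlue.iF_tq hle (modularFunctionFieldFull M) n e
    (F.htq (K1 M)) (F.htq L)

theorem Dat_iF_tK (L : IntermediateField ℚ Qbar) [FiniteDimensional ℚ L] (hle : K1 M ≤ L) :
    (Dat ℓ M L hle).iF (tK F (K1 M)) = tK F L := by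
  rw [Dat_iF]; exact cLL_tK F L hle

/-- The model over `L` with the coordinate written as `iF t`. -/
theorem modelL (L : IntermediateField ℚ Qbar) [FiniteDimensional ℚ L] (hle : K1 M ≤ L) :
    TwoChartModel ↥(AK (padicPlace ℓ) L) ↥L ↥(FK M L) (unif ℓ L)
      ((Dat ℓ M L hle).iF (tK F (K1 M))) (B0K F L) (B1K F L)
      (gaussVS (isUnif_AK (hA ℓ) L (unif_irreducible ℓ L)) (FK M L)
        (FK_le_fracField_AK (padicPlace ℓ) L M)) := by
  rw [Dat_iF_tK F L hle]
  exact modelK F L (hle (zetaK_mem_K1 M))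

/-- The chart isomorphism before transport. -/
def E' (L : IntermediateField ℚ Qbar) [FiniteDimensional ℚ L] (hle : K1 M ≤ L) :
    letI := algAKL (padicPlace ℓ) hle
    ChartIso ((c0 F :).baseChange ↥L) ((Dat ℓ M L hle).iF (tK F (K1 M))) :=
  letI := algAK (padicPlace ℓ) hle
  Fermat.Agent.T1.ChartIso20.chartIso (Dat ℓ M L hle) (fun r => Dat_iR ℓ M L hle r)
    (modelK F (K1 M) (zetaK_mem_K1 M)) (modelL F L hle)

/-- **The chart isomorphism over `L`.** -/
def E (L : IntermediateField ℚ Qbar) [FiniteDimensional ℚ L] (hle : K1 M ≤ L) :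
    letI := algAKL (padicPlace ℓ) hle
    ChartIso ((c0 F :).baseChange ↥L) (tK F L) :=
  letI := algAKL (padicPlace ℓ) hle
  castT (Dat_iF_tK F L hle) (E' F L hle)

/-- **`E` is standard on pure tensors.** -/
theorem isStdIso (L : IntermediateField ℚ Qbar) [FiniteDimensional ℚ L] (hle : K1 M ≤ L) :
    letI := algAKL (padicPlace ℓ) hle
    IsStdIso M hle (β0 F) (β1 F) (β01 F) (E F L hle) := by
  letI := algAKL (padicPlace ℓ) hle
  refine isStdIso_of_tmul (fun l b => ?_) (fun l b => ?_) (fun l b => ?_)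
  · refine (castT_e0 (Dat_iF_tK F L hle) (E' F L hle) (l ⊗ₜ[Wr ℓ M] b)).trans ?_
    show algebraMap ↥L ↥(FK M L) l * (Dat ℓ M L hle).iF (b : ↥(FK M (K1 M))) = _
    rw [Dat_iF]; rfl
  · refine (castT_e1 (Dat_iF_tK F L hle) (E' F L hle) (l ⊗ₜ[Wr ℓ M] b)).trans ?_
    show algebraMap ↥L ↥(FK M L) l * (Dat ℓ M L hle).iF (b : ↥(FK M (K1 M))) = _
    rw [Dat_iF]; rfl
  · refine (castT_e01 (Dat_iF_tK F L hle) (E' F L hle) (l ⊗ₜ[Wr ℓ M] b)).trans ?_
    show algebraMap ↥L ↥(FK M L) l * (Dat ℓ M L hle).iF (b : ↥(FK M (K1 M))) = _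
    rw [Dat_iF]; rfl

/-- The coordinate over `L` is a transcendental generator. -/
theorem isCoord (L : IntermediateField ℚ Qbar) [FiniteDimensional ℚ L] (hle : K1 M ≤ L) :
    IsCoord M (tK F L) :=
  ⟨(explicitK F L (hle (zetaK_mem_K1 M))).transc, (explicitK F L (hle (zetaK_mem_K1 M))).finite⟩

/-- **The concrete chart isomorphism family.** -/
def concreteFamily :
    ChartIsoFamily ℓ M (c0 F :) (Fermat.Agent.T1.Assembly41.ChartAct.chartAction F) :=
  Fermat.Agent.T1.ChartIsoFam90.chartIsoFamily_of_std ℓ M (c0 F :)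
    (Fermat.Agent.T1.Assembly41.ChartAct.chartAction F) (β0 F) (β1 F) (β01 F)
    (fun σ b => Fermat.Agent.T1.Assembly41.ChartAct.coe_σ0 F σ b)
    (fun σ b => Fermat.Agent.T1.Assembly41.ChartAct.coe_σ1 F σ b)
    (fun L _ _ => tK F L) (fun L _ hle => isCoord F L hle) (fun L _ hle => E F L hle)
    (fun L _ hle => isStdIso F L hle)

end Fermat.Agent.T1.Assembly41.ChartIsoC
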