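/-
Fermat/Agent/T1/Assembly41/ConcreteHub.lean  (helper41, lead of programme T1A = S19 + S32)

THE CONCRETE HUB: shared vocabulary for the last mile of S19.  For a prime `ℓ`, a level `M` with
`ℓ ∤ M`, and Hauptmodul parameters `(n, e)` (`(4, 8)` for `ℓ` odd, `(9, 3)` for `ℓ = 2`):

* `ModelFamily ℓ M n e` : helper4's explicit models (brick G0) over `A ∩ K` for EVERY number field
  `K ∋ ζ_M`, all with the SAME coordinate `t = tq K n e`;
* `tK`, `unif`, `modelK`, `B0K`, `B1K` : the coordinate, a uniformiser, the model and its charts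
  over `K`;
* `c0 F` : the hub chart system over `W = A ∩ ℚ(ζ_M)` (`Coh60.modelChart` of the model over `K₁`).

Every sub-assembly (HUB-RED, CHARTACTION, DICT-FINAL, CENTRES-FINAL) proves its Prop of
`FinalIface.lean` for `c0 F`; `Package.lean` collects them into a `HubPackage`.
-/
import Mathlib
import Fermat.Agent.T1.Assembly41.FinalIface
import Fermat.Agent.T1.ModelUnr4.Explicit
import Fermat.Agent.T1.Coh60.ModelLine

set_option autoImplicit false
set_option linter.unusedSectionVars false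
set_option linter.style.haveILetI false

noncomputable section

namespace Fermat.Agent.T1.Assembly41.Concrete

open Fermat.Agent Fermat.Agent.Jac Fermat.Agent.T1.HubInst98
open Fermat.Agent.RED.Interface4 Fermat.Agent.RED.CORE.CoreIface24
open Fermat.Agent.RED.PUR.GaussGen8 Fermat.Agent.RED.PUR.ChartGeneric22
open Fermat.Agent.RED.BASE.EtaQuot12 Fermat.Agent.RED.BASE.Hauptmodul12
open Fermat.Agent.T1.ModelUnr4.Explicit Fermat.Agent.T1.Coh60
open Fermat.Agent.X0

variable (ℓ : ℕ) [Fact ℓ.Prime] (M : ℕ) [NeZero M] (n e : ℕ) [NeZero n]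

/-- `A = padicPlace ℓ` lies over `ℓ`. -/
theorem hA : (padicPlace ℓ).LiesOverPrime ℓ := Fermat.Agent.T1.LocModel46.liesOverPrime ℓ

/-- **The explicit model family** (brick G0): over every number field `K ∋ ζ_M`, for every
uniformiser, the explicit two-chart model with coordinate `tq K n e`. -/
structure ModelFamily : Prop where
  hℓM : ¬ ℓ ∣ M
  htq : ∀ K : IntermediateField ℚ Qbar, tq K n e ∈ FK M K
  model : ∀ (K : IntermediateField ℚ Qbar) [FiniteDimensional ℚ K] (_ : zetaK M ∈ K)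
    (ϖ : ↥(AK (padicPlace ℓ) K)) (hϖ : Irreducible ϖ),
    ExplicitModel (AK (padicPlace ℓ) K) (FK M K) ϖ (isUnif_AK (hA ℓ) K hϖ)
      (FK_le_fracField_AK (padicPlace ℓ) K M) ⟨tq K n e, htq K⟩

/-- `ℓ` odd: `(n, e) = (4, 8)`. -/
theorem modelFamily_four (hd : 4 ∣ M) (hℓM : ¬ ℓ ∣ M) : ModelFamily ℓ M 4 8 where
  hℓM := hℓM
  htq := fun K => tq_mem_FK_of_baseHyp baseHyp_four hd K
  model := fun K _ hζ ϖ hϖ => explicitModel_four hd hℓM (hA ℓ) K hζ ϖ hϖ

/-- `ℓ = 2`: `(n, e) = (9, 3)`. -/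
theorem modelFamily_nine (hd : 9 ∣ M) (hℓM : ¬ ℓ ∣ M) : ModelFamily ℓ M 9 3 where
  hℓM := hℓM
  htq := fun K => tq_mem_FK_of_baseHyp baseHyp_nine hd K
  model := fun K _ hζ ϖ hϖ => explicitModel_nine hd hℓM (hA ℓ) K hζ ϖ hϖ

variable {ℓ M n e} (F : ModelFamily ℓ M n e)

/-- The coordinate over `K`. -/
def tK (K : IntermediateField ℚ Qbar) : ↥(FK M K) := ⟨tq K n e, F.htq K⟩

theorem coe_tK (K : IntermediateField ℚ Qbar) :
    ((tK F K : ↥(FK M K)) : LaurentSeries K) = tq K n e := rfl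

variable (ℓ) in
/-- `A ∩ K` is a DVR. -/
theorem isDVR (K : IntermediateField ℚ Qbar) [FiniteDimensional ℚ K] :
    IsDiscreteValuationRing ↥(AK (padicPlace ℓ) K) := isDVR_OL ℓ K

variable (ℓ) in
/-- A chosen uniformiser of `A ∩ K`. -/
def unif (K : IntermediateField ℚ Qbar) [FiniteDimensional ℚ K] : ↥(AK (padicPlace ℓ) K) :=
  haveI := isDVR ℓ K
  Classical.choose (IsDiscreteValuationRing.exists_irreducible ↥(AK (padicPlace ℓ) K))

variable (ℓ) in
theorem unif_irreducible (K : IntermediateField ℚ Qbar) [FiniteDimensional ℚ K] :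
    Irreducible (unif ℓ K) :=
  haveI := isDVR ℓ K
  Classical.choose_spec (IsDiscreteValuationRing.exists_irreducible ↥(AK (padicPlace ℓ) K))

/-- The explicit model over `K ∋ ζ_M` (with the chosen uniformiser). -/
theorem explicitK (K : IntermediateField ℚ Qbar) [FiniteDimensional ℚ K] (hζ : zetaK M ∈ K) :
    ExplicitModel (AK (padicPlace ℓ) K) (FK M K) (unif ℓ K)
      (isUnif_AK (hA ℓ) K (unif_irreducible ℓ K)) (FK_le_fracField_AK (padicPlace ℓ) K M)
      (tK F K) :=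
  F.model K hζ (unif ℓ K) (unif_irreducible ℓ K)

/-- Chart 0 over `K`: the integral closure of `(A ∩ K)[t]` in `K·F_M`. -/
abbrev B0K (K : IntermediateField ℚ Qbar) : Subalgebra ↥(AK (padicPlace ℓ) K) ↥(FK M K) :=
  chart ↥(AK (padicPlace ℓ) K) (tK F K)

/-- Chart 1 over `K`: the integral closure of `(A ∩ K)[t⁻¹]` in `K·F_M`. -/
abbrev B1K (K : IntermediateField ℚ Qbar) : Subalgebra ↥(AK (padicPlace ℓ) K) ↥(FK M K) :=
  chart ↥(AK (padicPlace ℓ) K) (tK F K)⁻¹

/-- The two-chart model over `K ∋ ζ_M`. -/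
theorem modelK (K : IntermediateField ℚ Qbar) [FiniteDimensional ℚ K] (hζ : zetaK M ∈ K) :
    TwoChartModel ↥(AK (padicPlace ℓ) K) K ↥(FK M K) (unif ℓ K) (tK F K) (B0K F K) (B1K F K)
      (gaussVS (isUnif_AK (hA ℓ) K (unif_irreducible ℓ K)) (FK M K)
        (FK_le_fracField_AK (padicPlace ℓ) K M)) :=
  (explicitK F K hζ).model

/-- **The hub chart system** over `W = A ∩ ℚ(ζ_M)`. -/
def c0 : @TwoChart (Wr ℓ M) ↥(B0K F (K1 M)) ↥(B1K F (K1 M)) ↥(B0K F (K1 M) ⊔ B1K F (K1 M))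
    _ _ _ _ _ _ _ (algebra0 (B0K F (K1 M)) (B1K F (K1 M)))
    (algebra1 (B0K F (K1 M)) (B1K F (K1 M))) (isScalarTower0 (B0K F (K1 M)) (B1K F (K1 M)))
    (isScalarTower1 (B0K F (K1 M)) (B1K F (K1 M))) :=
  modelChart (modelK F (K1 M) (zetaK_mem_K1 M))

end Fermat.Agent.T1.Assembly41.Concrete
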