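/-
Fermat/Agent/T1/Assembly41/Final.lean  (helper41, lead of programme T1A = S19 + S32)

THE FINAL ABSTRACT ASSEMBLY of the geometric half of T1A: the Props of `FinalIface.lean`
(`WCompat`, invariant basis, `HubRedAt`, `NormsAt`, `WMu`, `DictFinal`, `CentresFinal`) give the
arithmetic local analytic group data `ModCoordData` for `J₀(M)[ℓ^k]`.

Route: `DictFinal` gives `L₀`; take `L₁ ⊇ L₀ ⊔ K₁` finite normal and `d₁`; feed the finite family
`d₁ y` to `CentresFinal` to get `L ⊇ L₁`; at level `L` build `HubData` (small model of the point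
classes by helper44's `HubGal.ofPoints`, embedding from `d`, centres from `CentresFinal`), and
conclude with helper20's `HubData.nonempty_modCoordData`.
-/
import Mathlib
import Fermat.Agent.T1.Assembly41.FinalIface
import Fermat.Agent.T1.HubGal44
import Fermat.Agent.T1.Red20.RepsHub

set_option autoImplicit false
set_option linter.unusedSectionVars false
set_option linter.style.haveILetI false

noncomputable section

open TensorProduct

namespace Fermat.Agent.T1.Assembly41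

open Fermat.Agent Fermat.Agent.Jac Fermat.Agent.T1.RedIface75 Fermat.Agent.TW.B5.Iface
open Fermat.Agent.T1.AlgIface47 Fermat.Agent.T1.HubInst98 Fermat.Agent.T1.GalAct44
open Fermat.Agent.RED.Interface4 Fermat.Agent.Flat44 Fermat.Agent.T1.HubGal44
open Fermat.Agent.T1.Red20.CoordFun
open ModularCurve

/-- Every number field inside `ℚ̄` lies in a finite normal one. -/
theorem exists_normal_fd_ge (K : IntermediateField ℚ Qbar) [FiniteDimensional ℚ K] :
    ∃ L : IntermediateField ℚ Qbar, FiniteDimensional ℚ L ∧ Normal ℚ L ∧ K ≤ L := by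
  haveI h0 : Algebra.IsAlgebraic ℚ Qbar := inferInstance
  haveI : IsAlgClosure ℚ Qbar := ⟨inferInstance, h0⟩
  haveI : Normal ℚ Qbar := IsAlgClosure.normal ℚ Qbar
  exact ⟨IntermediateField.normalClosure ℚ K Qbar, normalClosure.is_finiteDimensional ℚ K Qbar,
    normalClosure.normal ℚ K Qbar, K.le_normalClosure⟩

variable (ℓ : ℕ) [Fact ℓ.Prime] (M : ℕ) [NeZero M]
variable {B0 B1 B01 : Type} [CommRing B0] [CommRing B1] [CommRing B01]
  [Algebra (Wr ℓ M) B0] [Algebra (Wr ℓ M) B1] [Algebra (Wr ℓ M) B01] [Algebra B0 B01]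
  [Algebra B1 B01] [IsScalarTower (Wr ℓ M) B0 B01] [IsScalarTower (Wr ℓ M) B1 B01]
  (c0 : TwoChart (Wr ℓ M) B0 B1 B01) {g : ℕ} (b : Fin g → B01)
  (H : ChartAction c0 (Gp ℓ))

/-- **The final abstract assembly.** -/
theorem modCoordData_of_props (hℓM : ¬ ℓ ∣ M) (hW : WCompat ℓ M c0 H)
    (hb : ∀ (σ : Gp ℓ) (i : Fin g), (H.S σ).σ01 (b i) = b i)
    (hRed : ∀ (L : IntermediateField ℚ Qbar) [FiniteDimensional ℚ L] (hle : K1 M ≤ L),
      HubRedAt ℓ M c0 b L hle)
    (hNorms : ∀ (L : IntermediateField ℚ Qbar) [FiniteDimensional ℚ L], NormsAt ℓ L)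
    (hMu : WMu ℓ M) (k : ℕ) [Finite (TorsM ℓ M k)]
    (hDict : DictFinal ℓ M c0 H hW k) (hCen : CentresFinal ℓ M c0 H hW) :
    ∃ (J : Type) (_ : AddCommGroup J),
      Nonempty (ModCoordData ℓ J (TorsM ℓ M k) (locActM ℓ M k)) := by
  obtain ⟨L₀, hL₀, hD⟩ := hDict
  haveI := hL₀
  obtain ⟨L₁, hL₁fd, hL₁n, hL₁le⟩ := exists_normal_fd_ge (L₀ ⊔ K1 M)
  haveI := hL₁fd
  haveI := hL₁n
  have hle₁ : K1 M ≤ L₁ := le_trans le_sup_right hL₁le
  have h₀ : L₀ ≤ L₁ := le_trans le_sup_left hL₁le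
  obtain ⟨d₁, hd₁mem, hD'⟩ := hD L₁ hle₁ h₀
  obtain ⟨L, hLfd, hLn, hL, hC⟩ := hCen L₁ hle₁ (TorsM ℓ M k) d₁ hd₁mem
  haveI := hLfd
  haveI := hLn
  obtain ⟨d, hdmul, hdinj, hdmem, hdeq, hdcompat⟩ := hD' L hL
  have hle : K1 M ≤ L := hle₁.trans hL
  letI := algAK (padicPlace ℓ) hle
  letI := algAKL (padicPlace ℓ) hle
  haveI := isScalarTower_AK (padicPlace ℓ) hle
  haveI := isDVR_OL ℓ L
  obtain ⟨e, he, hmem_pow, hdiv_pow, hmem_max, hfield⟩ := hNorms L
  obtain ⟨hEU, hInj, hExt, hF⟩ := hRed L hle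
  choose F hF using hF
  have hc : ∀ (σ : Gp ℓ) (a : OL ℓ L),
      (semiL hW L hle).f σ (algebraMap (OL ℓ L) ↥L a) =
        algebraMap (OL ℓ L) ↥L ((semiO hW L hle).f σ a) := fun σ a => rfl
  let HG := HubGal.ofPoints H (semiO hW L hle) (semiL hW L hle) hc
  let emb : TorsM ℓ M k →+ JModel25.Model (ptFamily c0 ↥L) := embOfPoints d hdmul hdmem
  have hemb : ∀ y, Additive.toMul (HG.φ (emb y)) = d y :=
    ofPoints_φ_emb H (semiO hW L hle) (semiL hW L hle) hc d hdmul hdmem
  refine ⟨JModel25.Model (ptFamily c0 ↥L), inferInstance, ?_⟩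
  refine HubData.nonempty_modCoordData (c0 := c0) (b := b) (O := OL ℓ L) (L := ↥L)
    { HG with
      jL := jL L
      jL_int := fun x => (norm_iota_jL_le_one_iff ℓ _).2 x.2
      e := e
      e_pos := he
      mem_pow := hmem_pow
      div_pow := hdiv_pow
      mem_max := hmem_max
      field := hfield
      jL_fL := fun σ x => jL_resL L (localGaloisToGlobal ℓ σ) x
      hb := hb
      hEU := hEU
      hInj := hInj
      hExt := hExt
      m := M
      m_ndvd := hℓM
      W_mu := fun w => hMu w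
      F := F
      hF := hF
      emb := emb
      emb_inj := embOfPoints_injective d hdmul hdmem hdinj
      emb_equiv := fun σ y =>
        embOfPoints_equiv H (semiO hW L hle) (semiL hW L hle) hc d hdmul hdmem
          (locActM ℓ M k) hdeq σ y
      centres := ?_ }
  intro y
  obtain ⟨x', hx'mem, ⟨w, hwJ1, hw⟩, E, hEfd, hEun, hEfix⟩ := hC y
  obtain ⟨x, hx⟩ := ofPoints_exists_φ_eq H (semiO hW L hle) (semiL hW L hle) hc hx'mem
  refine ⟨x, ⟨w, hwJ1, ?_⟩, E, hEfd, hEun, fun σ hσ => ?_⟩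
  · rw [hw, hdcompat y, map_sub]
    show _ = Additive.toMul (HG.φ (emb y)) / Additive.toMul (HG.φ x)
    rw [hemb y, hx, div_eq_mul_inv]
  · apply HG.φ_inj
    apply Additive.toMul.injective
    rw [HG.φ_act, hx]
    exact hEfix σ hσ

end Fermat.Agent.T1.Assembly41
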