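/-
Fermat/Agent/T1/Assembly41/Top.lean  (helper41, lead of programme T1A = S19 + S32)

THE TOP OF S19.  `HubPackage ℓ M` bundles the hub (charts of the model of `X₀(M)` over
`W = A ∩ ℚ(ζ_M)`, Čech basis, Galois action) together with the proofs of the Props of
`FinalIface.lean`.  `s19_of_packages` : a package at every auxiliary level gives the frozen S19
statement (through `Final.modCoordData_of_props` and helper48's `Top48.s19_of_modCoordData`).
-/
import Mathlib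
import Fermat.Agent.T1.Assembly41.Final
import Fermat.Agent.T1.Top48

set_option autoImplicit false
set_option linter.unusedSectionVars false
set_option linter.style.haveILetI false

noncomputable section

namespace Fermat.Agent.T1.Assembly41

open Fermat.Agent Fermat.Agent.Jac Fermat.Agent.T1.RedIface75 Fermat.Agent.TW.B5.Iface
open Fermat.Agent.T1.AlgIface47 Fermat.Agent.T1.HubInst98 Fermat.Agent.T1.GalAct44
open Fermat.Agent.RED.Interface4 Fermat.Agent.Flat44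
open ModularCurve

/-- **The hub package at level `M`**: everything the geometric half of T1A has to produce. -/
structure HubPackage (ℓ : ℕ) [Fact ℓ.Prime] (M : ℕ) [NeZero M] where
  B0 : Type
  B1 : Type
  B01 : Type
  [cr0 : CommRing B0]
  [cr1 : CommRing B1]
  [cr01 : CommRing B01]
  [algW0 : Algebra (Wr ℓ M) B0]
  [algW1 : Algebra (Wr ℓ M) B1]
  [algW01 : Algebra (Wr ℓ M) B01]
  [alg001 : Algebra B0 B01]
  [alg101 : Algebra B1 B01]
  [tower0 : IsScalarTower (Wr ℓ M) B0 B01]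
  [tower1 : IsScalarTower (Wr ℓ M) B1 B01]
  c0 : TwoChart (Wr ℓ M) B0 B1 B01
  g : ℕ
  b : Fin g → B01
  H : ChartAction c0 (Gp ℓ)
  hW : WCompat ℓ M c0 H
  hb : ∀ (σ : Gp ℓ) (i : Fin g), (H.S σ).σ01 (b i) = b i
  hRed : ∀ (L : IntermediateField ℚ Qbar) [FiniteDimensional ℚ L] (hle : K1 M ≤ L),
    HubRedAt ℓ M c0 b L hle
  hNorms : ∀ (L : IntermediateField ℚ Qbar) [FiniteDimensional ℚ L], NormsAt ℓ L
  hMu : WMu ℓ M
  hDict : ∀ k : ℕ, DictFinal ℓ M c0 H hW k
  hCen : CentresFinal ℓ M c0 H hW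

attribute [instance] HubPackage.cr0 HubPackage.cr1 HubPackage.cr01 HubPackage.algW0
  HubPackage.algW1 HubPackage.algW01 HubPackage.alg001 HubPackage.alg101 HubPackage.tower0
  HubPackage.tower1

/-- A hub package gives arithmetic local analytic group data for every `J₀(M)[ℓ^k]`. -/
theorem modCoordData_of_package (ℓ : ℕ) [Fact ℓ.Prime] (M : ℕ) [NeZero M] (hℓM : ¬ ℓ ∣ M)
    (P : HubPackage ℓ M) (k : ℕ) :
    ∃ (J : Type) (_ : AddCommGroup J),
      Nonempty (ModCoordData ℓ J (TorsM ℓ M k) (locActM ℓ M k)) := by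
  haveI : NeZero (ℓ ^ k) := ⟨pow_ne_zero _ (Fact.out : ℓ.Prime).ne_zero⟩
  haveI : Finite (TorsM ℓ M k) := by
    have h := Fermat.Agent.T1.Top48.finite_torsionBy M (ℓ ^ k)
    rw [Nat.cast_pow] at h
    exact h
  exact modCoordData_of_props ℓ M P.c0 P.b P.H hℓM P.hW P.hb P.hRed P.hNorms P.hMu k
    (P.hDict k) P.hCen

/-- **S19 from hub packages at the auxiliary levels.** -/
theorem s19_of_packages
    (hP : ∀ (N : ℕ) [NeZero N] (ℓ : ℕ) [Fact ℓ.Prime], ¬ ℓ ∣ N →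
      ∃ _ : NeZero (auxLevel ℓ N), Nonempty (HubPackage ℓ (auxLevel ℓ N)))
    (p : ℕ) [NeZero p] (ℓ : ℕ) [Fact ℓ.Prime] (hℓp : ¬ ℓ ∣ p) (k : ℕ) :
    ∃ (H : Type) (_ : CommRing H) (_ : HopfAlgebra (GaloisRep.ratLocalizedAt ℓ) H),
      Module.Finite (GaloisRep.ratLocalizedAt ℓ) H ∧ Module.Flat (GaloisRep.ratLocalizedAt ℓ) H ∧
      Coalgebra.IsCocomm (GaloisRep.ratLocalizedAt ℓ) H ∧
      ∃ e : WithConv (H →ₐ[GaloisRep.ratLocalizedAt ℓ] AlgebraicClosure ℚ) ≃
          ↥(Submodule.torsionBy ℤ (JZero p) ((ℓ : ℤ) ^ k)),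
        (∀ f g, e (f * g) = e f + e g) ∧
        ∀ (σ : AlgebraicClosure ℚ ≃ₐ[ℚ] AlgebraicClosure ℚ)
          (f g : WithConv (H →ₐ[GaloisRep.ratLocalizedAt ℓ] AlgebraicClosure ℚ)),
          (∀ h : H, g h = σ (f h)) → ((e g : JZero p)) = σ • (e f : JZero p) := by
  refine Fermat.Agent.T1.Top48.s19_of_modCoordData (fun N _ ℓ' _ hℓN k' => ?_) p ℓ hℓp k
  obtain ⟨hne, ⟨P⟩⟩ := hP N ℓ' hℓN
  exact modCoordData_of_package ℓ' (auxLevel ℓ' N) (Fermat.Agent.RED.Interface4.not_dvd_auxLevel Fact.out hℓN) P k'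

end Fermat.Agent.T1.Assembly41
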