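import Mathlib
import Fermat.Agent.T1.Assembly41.Top
import Fermat.Agent.T1.HubRed76
import Fermat.Agent.T1.InvBasis70.Final
import Fermat.Agent.T1.HubNorms70Final
import Fermat.Agent.T1.CechFormal70.CoordLaw

/-!
# T1A (S19), assembly layer G9: the hub package from a two-chart model over `W = A ∩ ℚ(ζ_M)`  (helper47)

`nonempty_hubPackage_of_model` : GENERIC concrete end of S19.  Inputs:

* a two-chart model `M1 : TwoChartModel W K₁ F π t B0 B1 Ov` over `W = Wr ℓ M`, `K₁ = K1 M`, with the G0 extras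
  `hM : HubRed76.ModelHyp` (`htrans`, `fin1`, `hKF`, `hκ`);
* the Galois action `H : ChartAction (modelChart M1) (Gp ℓ)` with `hW : WCompat` and `h2` (the `σ` fixing `K₁`
  act trivially on `B01`)  [bricks G9-H6 / HubGalInst];
* `hFacts` : `HubRed76.HubFacts (modelChart M1) (OL ℓ L)` for every finite `L ⊇ K₁`  [bricks G2 / G2-X];
* `hDict`, `hCen` : the Props `DictFinal`, `CentresFinal`  [bricks G7, G9-H7].

Output: `Nonempty (HubPackage ℓ M)`.  The invariant Čech basis comes from `InvBasis70`, `HubRedAt` from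
`Red11` / `CoordInj23` / `Red68` / `CechFormal70.groupLawAt`, `NormsAt` / `WMu` from `HubNorms70Final`.
-/

set_option autoImplicit false
set_option linter.unusedSectionVars false
set_option linter.style.haveILetI false

noncomputable section

open TensorProduct Polynomial

namespace Fermat.Agent.T1.Assembly41

open Fermat.Agent Fermat.Agent.Jac Fermat.Agent.T1.RedIface75 Fermat.Agent.TW.B5.Iface
open Fermat.Agent.T1.AlgIface47 Fermat.Agent.T1.HubInst98 Fermat.Agent.T1.GalAct44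
open Fermat.Agent.RED.Interface4 Fermat.Agent.RED.CORE.CoreIface24
open Fermat.Agent.T1.HubRed76 Fermat.Agent.T1.CechFormal70 Fermat.Agent.T1.Coh60
open Fermat.Agent.T1.Red20.CoordFun

attribute [local instance] Coh60.algebra0 Coh60.algebra1 Coh60.isScalarTower0
  Coh60.isScalarTower1

variable (ℓ : ℕ) [Fact ℓ.Prime] (M : ℕ) [NeZero M]

/-- **The hub package of a two-chart model over `W = A ∩ ℚ(ζ_M)`.** -/
theorem nonempty_hubPackage_of_model (hℓM : ¬ ℓ ∣ M)
    {F : Type} [Field F] [Algebra (Wr ℓ M) F] [Algebra ↥(K1 M) F]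
    [IsScalarTower (Wr ℓ M) ↥(K1 M) F]
    {π : Wr ℓ M} {t : F} {B0 B1 : Subalgebra (Wr ℓ M) F} {Ov : ValuationSubring F}
    (M1 : TwoChartModel (Wr ℓ M) ↥(K1 M) F π t B0 B1 Ov)
    (hM : ModelHyp ↥(K1 M) π t B1 Ov)
    (H : ChartAction (mc M1 :) (Gp ℓ)) (hW : WCompat ℓ M (mc M1 :) H)
    (h2 : ∀ σ : Gp ℓ, (∀ x ∈ K1 M, localGaloisToGlobal ℓ σ x = x) →
      (H.S σ).σ01 = RingHom.id ↥(B0 ⊔ B1))
    (hFacts : ∀ (L : IntermediateField ℚ Qbar) [FiniteDimensional ℚ L] (hle : K1 M ≤ L),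
      letI := algAK (padicPlace ℓ) hle
      HubFacts (mc M1 :) (OL ℓ L))
    (hDict : ∀ k : ℕ, DictFinal ℓ M (mc M1 :) H hW k)
    (hCen : CentresFinal ℓ M (mc M1 :) H hW) :
    Nonempty (HubPackage ℓ M) := by
  -- the Čech datum of the model and its invariant twin
  let D := ModelCoh30.cechData M1 hM.hKF hM.hκ
  have hρ0 : ∀ x, D.ρ0 x = algebraMap ↥B0 ↥(B0 ⊔ B1) x := fun _ => rfl
  have hρ1 : ∀ x, D.ρ1 x = algebraMap ↥B1 ↥(B0 ⊔ B1) x := fun _ => rfl
  obtain ⟨D', h0', h1', hinv⟩ :=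
    InvBasis70.exists_invariant_cechData_of_WCompat ℓ M hℓM H hW h2 D hρ0 hρ1
  have hρ0' : ∀ x, D'.ρ0 x = algebraMap ↥B0 ↥(B0 ⊔ B1) x := fun x => by rw [h0']; exact hρ0 x
  have hρ1' : ∀ x, D'.ρ1 x = algebraMap ↥B1 ↥(B0 ⊔ B1) x := fun x => by rw [h1']; exact hρ1 x
  have hfp : (mc M1 :).FiniteProjOverLine := finiteProjOverLine M1 hM
  refine ⟨{ B0 := ↥B0
            B1 := ↥B1
            B01 := ↥(B0 ⊔ B1)
            c0 := mc M1
            g := ModelCoh30.genus M1 hM.hκ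
            b := D'.b
            H := H
            hW := hW
            hb := hinv
            hRed := ?_
            hNorms := fun L _ => HubNorms70.normsAt ℓ L
            hMu := HubNorms70.wMu ℓ M
            hDict := hDict
            hCen := hCen }⟩
  intro L _ hle
  letI := algAK (padicPlace ℓ) hle
  letI := algAKL (padicPlace ℓ) hle
  haveI := isScalarTower_AK (padicPlace ℓ) hle
  haveI := isDVR_OL ℓ L
  obtain ⟨πO, hπO, hg⟩ := (hFacts L hle).exists_pi
  exact ⟨Red11.coordExistsUnique (mc M1 :) D' hρ0' hρ1' (OL ℓ L),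
    CoordInj23.coordInjective_of_cechData (mc M1 :) hfp D' hρ0' hρ1' (OL ℓ L),
    Red68.extInjective_of_cechData (mc M1 :) D' hρ0' hρ1' (OL ℓ L) ↥L hπO hg,
    fun n => ⟨D'.F n, groupLawAt (mc M1 :) D' hρ0' hρ1' (OL ℓ L) n⟩⟩

end Fermat.Agent.T1.Assembly41
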