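import Mathlib
import Fermat.Agent.T1.Assembly41.PackageOfModel
import Fermat.Agent.T1.Assembly41.ConcreteHub
import Fermat.Agent.T1.ModelFacts62.G0Exports
import Fermat.Agent.T1.ModelCoh30.GaussRes
import Fermat.Agent.T1.CentresInst75

/-!
# T1A (S19), assembly layer G9: the hub packages at the auxiliary levels  (helper47)

* `modelHyp F` : the G0 extras `HubRed76.ModelHyp` of the concrete model over `K₁ = ℚ(ζ_M)`
  (`htrans`, `hKF` from `ModelFacts62.G0Exports`, `fin1` from `ExplicitModel`, `hκ` from `ModelCoh30.GaussRes`);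
* `nonempty_hubPackage F H hW h2 hFacts hDict hCen` : the hub package of the concrete hub `Concrete.c0 F` from
  the owners' final theorems (Galois action, hub facts at every `O_L`, `DictFinal`, `CentresFinal`);
* `nonempty_hubPackage'` : the same with `CentresFinal` discharged (`CentresInst75.centresFinal_of_model_h2`);
* `FactsProvider`, `ActionProvider` : what remains to be landed (hub facts at every `O_L`; the Galois action
  with `WCompat`, `h2` and `DictFinal`); `hub_packages_of_providers` : the providers give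
  `HubPackage ℓ (auxLevel ℓ N)` for all `N`, `ℓ ∤ N` (cases `ℓ = 2`: `(n, e) = (9, 3)`; `ℓ` odd: `(4, 8)`),
  i.e. the hypothesis of `Assembly41.s19_of_packages`.
-/

set_option autoImplicit false
set_option linter.unusedSectionVars false
set_option linter.style.haveILetI false

noncomputable section

open TensorProduct Polynomial

namespace Fermat.Agent.T1.Assembly41

open Fermat.Agent Fermat.Agent.Jac Fermat.Agent.T1.RedIface75 Fermat.Agent.TW.B5.Iface
open Fermat.Agent.T1.AlgIface47 Fermat.Agent.T1.HubInst98 Fermat.Agent.T1.GalAct44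
open Fermat.Agent.RED.Interface4 Fermat.Agent.RED.CORE.CoreIface24
open Fermat.Agent.RED.PUR.GaussGen8
open Fermat.Agent.T1.HubRed76 Fermat.Agent.T1.Coh60 Fermat.Agent.T1.ModelUnr4.Explicit
open Fermat.Agent.T1.Assembly41.Concrete
open Fermat.Agent.X0

attribute [local instance] Coh60.algebra0 Coh60.algebra1 Coh60.isScalarTower0
  Coh60.isScalarTower1

variable {ℓ : ℕ} [Fact ℓ.Prime] {M : ℕ} [NeZero M] {n e : ℕ} [NeZero n]
  (F : ModelFamily ℓ M n e)

/-- The G0 extras of the concrete model over `K₁ = ℚ(ζ_M)`. -/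
theorem modelHyp :
    ModelHyp ↥(K1 M) (unif ℓ (K1 M)) (tK F (K1 M)) (B1K F (K1 M))
      (gaussVS (isUnif_AK (hA ℓ) (K1 M) (unif_irreducible ℓ (K1 M))) (FK M (K1 M))
        (FK_le_fracField_AK (padicPlace ℓ) (K1 M) M)) where
  htrans := ModelFacts62.G0Exports.htrans_gaussVS_tq _ _ (modelK F (K1 M) (zetaK_mem_K1 M)) n e rfl
  fin1 := (explicitK F (K1 M) (zetaK_mem_K1 M)).fin1
  hKF := ModelFacts62.G0Exports.hKF_intermediate (FK M (K1 M))
  hκ := ModelCoh30.resAlgClosed_gaussVS _ _ (modelK F (K1 M) (zetaK_mem_K1 M))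

/-- **The hub package of the concrete hub** `Concrete.c0 F`, from the owners' final theorems. -/
theorem nonempty_hubPackage
    (H : ChartAction (c0 F :) (Gp ℓ)) (hW : WCompat ℓ M (c0 F :) H)
    (h2 : ∀ σ : Gp ℓ, (∀ x ∈ K1 M, localGaloisToGlobal ℓ σ x = x) →
      (H.S σ).σ01 = RingHom.id ↥(B0K F (K1 M) ⊔ B1K F (K1 M)))
    (hFacts : ∀ (L : IntermediateField ℚ Qbar) [FiniteDimensional ℚ L] (hle : K1 M ≤ L),
      letI := algAK (padicPlace ℓ) hle
      HubFacts (c0 F :) (OL ℓ L))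
    (hDict : ∀ k : ℕ, DictFinal ℓ M (c0 F :) H hW k)
    (hCen : CentresFinal ℓ M (c0 F :) H hW) :
    Nonempty (HubPackage ℓ M) :=
  nonempty_hubPackage_of_model ℓ M F.hℓM (modelK F (K1 M) (zetaK_mem_K1 M)) (modelHyp F)
    H hW h2 hFacts hDict hCen

/-- The hub package of the concrete hub, with `CentresFinal` discharged by helper75's
`CentresInst75.centresFinal_of_model_h2`. -/
theorem nonempty_hubPackage'
    (H : ChartAction (c0 F :) (Gp ℓ)) (hW : WCompat ℓ M (c0 F :) H)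
    (h2 : ∀ σ : Gp ℓ, (∀ x ∈ K1 M, localGaloisToGlobal ℓ σ x = x) →
      (H.S σ).σ01 = RingHom.id ↥(B0K F (K1 M) ⊔ B1K F (K1 M)))
    (hFacts : ∀ (L : IntermediateField ℚ Qbar) [FiniteDimensional ℚ L] (hle : K1 M ≤ L),
      letI := algAK (padicPlace ℓ) hle
      HubFacts (c0 F :) (OL ℓ L))
    (hDict : ∀ k : ℕ, DictFinal ℓ M (c0 F :) H hW k) :
    Nonempty (HubPackage ℓ M) :=
  haveI := (explicitK F (K1 M) (zetaK_mem_K1 M)).finite
  nonempty_hubPackage F H hW h2 hFacts hDict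
    (CentresInst75.centresFinal_of_model_h2 (modelK F (K1 M) (zetaK_mem_K1 M)) H hW
      (unif_irreducible ℓ (K1 M)) (explicitK F (K1 M) (zetaK_mem_K1 M)).transc F.hℓM
      (HubNorms70.wMu ℓ M) h2 hFacts)

/-- **What remains to be landed (hub facts)**: `HubRed76.HubFacts` of the concrete hub at every `O_L`. -/
def FactsProvider : Prop :=
  ∀ (ℓ : ℕ) [Fact ℓ.Prime] (M : ℕ) [NeZero M] (n e : ℕ) [NeZero n] (F : ModelFamily ℓ M n e)
    (L : IntermediateField ℚ Qbar) [FiniteDimensional ℚ L] (hle : K1 M ≤ L),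
    letI := algAK (padicPlace ℓ) hle
    HubFacts (c0 F :) (OL ℓ L)

/-- **What remains to be landed (Galois action + dictionary)**: for every model family, a Galois action on
the concrete hub with `WCompat`, trivial on `B01` for the `σ` fixing `K₁`, and `DictFinal`. -/
def ActionProvider : Prop :=
  ∀ (ℓ : ℕ) [Fact ℓ.Prime] (M : ℕ) [NeZero M] (n e : ℕ) [NeZero n] (F : ModelFamily ℓ M n e),
    ∃ (H : ChartAction (c0 F :) (Gp ℓ)) (hW : WCompat ℓ M (c0 F :) H),
      (∀ σ : Gp ℓ, (∀ x ∈ K1 M, localGaloisToGlobal ℓ σ x = x) →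
        (H.S σ).σ01 = RingHom.id ↥(B0K F (K1 M) ⊔ B1K F (K1 M))) ∧
      ∀ k : ℕ, DictFinal ℓ M (c0 F :) H hW k

/-- The providers give the hub packages at all auxiliary levels. -/
theorem hub_packages_of_providers (hFP : FactsProvider) (hAP : ActionProvider) (N : ℕ) [NeZero N]
    (ℓ : ℕ) [Fact ℓ.Prime] (h : ¬ ℓ ∣ N) :
    ∃ _ : NeZero (auxLevel ℓ N), Nonempty (HubPackage ℓ (auxLevel ℓ N)) := by
  haveI hne : NeZero (auxLevel ℓ N) := ⟨(auxLevel_pos (Nat.pos_of_ne_zero (NeZero.ne N))).ne'⟩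
  refine ⟨hne, ?_⟩
  have hℓ : ℓ.Prime := Fact.out
  have hℓM : ¬ ℓ ∣ auxLevel ℓ N := not_dvd_auxLevel hℓ h
  by_cases h2 : ℓ = 2
  · have hd : 9 ∣ auxLevel ℓ N := by
      unfold auxLevel
      rw [if_pos h2]
      exact Nat.dvd_lcm_right N 9
    obtain ⟨H, hW, h2', hDict⟩ :=
      hAP ℓ (auxLevel ℓ N) 9 3 (modelFamily_nine ℓ (auxLevel ℓ N) hd hℓM)
    exact nonempty_hubPackage' _ H hW h2'
      (fun L _ hle => hFP ℓ (auxLevel ℓ N) 9 3 _ L hle) hDict
  · have hd : 4 ∣ auxLevel ℓ N := by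
      unfold auxLevel
      rw [if_neg h2]
      exact Nat.dvd_lcm_right N 4
    obtain ⟨H, hW, h2', hDict⟩ :=
      hAP ℓ (auxLevel ℓ N) 4 8 (modelFamily_four ℓ (auxLevel ℓ N) hd hℓM)
    exact nonempty_hubPackage' _ H hW h2'
      (fun L _ hle => hFP ℓ (auxLevel ℓ N) 4 8 _ L hle) hDict

end Fermat.Agent.T1.Assembly41
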