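/-
Fermat/Agent/T1/Assembly41/Provider.lean  (helper41, lead of programme T1A = S19 + S32)

THE LAST WIRING of the geometric half of S19: the two providers of `Assembly41/Package.lean` are
inhabited by the landed concrete bricks, hence hub packages exist at all auxiliary levels.

* `factsProvider`  : `HubRed76.HubFacts` of the concrete hub at every `O_L` (helper62/helper76/helper51);
* `actionProvider` : the Galois action `ChartAct.chartAction F` with `WCompat`, `h2` and `DictFinal`
  (`Dict59.dictFinal` of helper59 at the concrete chart isomorphism family `ChartIsoC.concreteFamily F`);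
* `hub_packages`   : `∀ N, ℓ ∤ N → Nonempty (HubPackage ℓ (auxLevel ℓ N))`, the hypothesis of
  `Assembly41.s19_of_packages` and of `FlatTarget47.s19FlatTarget_of_packages`.
-/
import Mathlib
import Fermat.Agent.T1.Assembly41.Package
import Fermat.Agent.T1.Assembly41.ChartActConcrete
import Fermat.Agent.T1.Assembly41.ChartIsoConcrete
import Fermat.Agent.T1.ModelFacts62.HubFactsConcrete
import Fermat.Agent.T1.Dict59.Final

set_option autoImplicit false
set_option linter.unusedSectionVars false
set_option linter.style.haveILetI false

noncomputable section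

namespace Fermat.Agent.T1.Assembly41

open Fermat.Agent Fermat.Agent.Jac Fermat.Agent.T1.RedIface75 Fermat.Agent.TW.B5.Iface
open Fermat.Agent.T1.HubInst98 Fermat.Agent.T1.GalAct44
open Fermat.Agent.RED.Interface4
open Fermat.Agent.T1.HubRed76 Fermat.Agent.T1.Coh60
open Fermat.Agent.T1.Assembly41.Concrete

attribute [local instance] Coh60.algebra0 Coh60.algebra1 Coh60.isScalarTower0
  Coh60.isScalarTower1

/-- The hub facts of the concrete hub at every `O_L`. -/
theorem factsProvider : FactsProvider :=
  fun _ _ _ _ _ _ _ F L _ hle =>
    Fermat.Agent.T1.ModelFacts62.HubFactsConcrete.hubFacts_concrete F L hle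

/-- The Galois action on the concrete hub, with `WCompat`, `h2` and `DictFinal`. -/
theorem actionProvider : ActionProvider :=
  fun ℓ _ M _ _ _ _ F =>
    ⟨ChartAct.chartAction F, ChartAct.wCompat F, ChartAct.h2 F, fun k =>
      Fermat.Agent.T1.Dict59.dictFinal ℓ M (c0 F :) (ChartAct.chartAction F)
        (ChartIsoC.concreteFamily F) (ChartAct.wCompat F) k⟩

/-- **Hub packages exist at all auxiliary levels.** -/
theorem hub_packages (N : ℕ) [NeZero N] (ℓ : ℕ) [Fact ℓ.Prime] (h : ¬ ℓ ∣ N) :
    ∃ _ : NeZero (auxLevel ℓ N), Nonempty (HubPackage ℓ (auxLevel ℓ N)) :=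
  hub_packages_of_providers factsProvider actionProvider N ℓ h

end Fermat.Agent.T1.Assembly41
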