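/-
Fermat/Agent/T1/Assembly41/Squares.lean  (helper41, programme T1A)

The two mixed squares that helper20's `Red20.CoordMap` takes as hypotheses
(`ResSquare`, `TruncSquare`), from `Assembly41.PicX.map_mapSemi`.
-/
import Mathlib
import Fermat.Agent.T1.Assembly41.BcComp
import Fermat.Agent.T1.Red20.CoordMap

set_option autoImplicit false

open TensorProduct

namespace Fermat.Agent.T1.Assembly41

open Fermat.Agent.Jac Fermat.Agent.T1.RedIface75 Fermat.Agent.T1.Red20.CoordMap
open scoped Fermat.Agent.Jac.BaseChange75

universe u

variable {W B0 B1 B01 : Type u} [CommRing W] [CommRing B0] [CommRing B1] [CommRing B01]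
  [Algebra W B0] [Algebra W B1] [Algebra W B01] [Algebra B0 B01] [Algebra B1 B01]
  [IsScalarTower W B0 B01] [IsScalarTower W B1 B01]
  {c0 : TwoChart W B0 B1 B01} (S : ChartAut c0)
  {O O' : Type u} [CommRing O] [IsDomain O] [IsDiscreteValuationRing O] [Algebra W O]
  [CommRing O'] [IsDomain O'] [IsDiscreteValuationRing O'] [Algebra W O']
  (f : O →+* O') [IsLocalHom f] (hf : ∀ (w : W) (a : O), f (w • a) = S.σW w • f a)

/-- Semilinear base change commutes with reduction. -/
theorem resSquare : ResSquare S f hf := fun y =>
  PicX.map_mapSemi S f hf (IsLocalRing.ResidueField.map f) (residueMap_semi S f hf)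
    (fun a => IsLocalRing.ResidueField.map_residue f a) y

/-- Semilinear base change commutes with truncation. -/
theorem truncSquare (n : ℕ) : TruncSquare S f hf n := fun y =>
  PicX.map_mapSemi S f hf (truncFun f n) (truncFun_semi S f hf n)
    (fun a => truncFun_mk f n a) y

end Fermat.Agent.T1.Assembly41
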